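import Fermat.Agent.S17.Curve.Sig

/-!
# S17 route F, layer 1: formal properties of the pairing `I` and of `hdiv`   [WP F-CB3]
-/

set_option autoImplicit false

namespace Fermat.Agent.MW

open AlgebraicCurve

variable {F : Type*} [Field F] [Algebra Qb F] [S27.IsFF Qb F]

namespace Setup

variable (S : Setup F)

/-! ### the pairing on divisors -/

theorem I_comm (D E : Divisor Qb F) : S.I D E = S.I E D := by
  unfold Setup.I
  rw [Finsupp.sum_comm]
  refine Finsupp.sum_congr fun Q _ => Finsupp.sum_congr fun P _ => ?_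
  rw [S.hD_comm P Q]
  ring

theorem I_add_left (D D' E : Divisor Qb F) : S.I (D + D') E = S.I D E + S.I D' E := by
  unfold Setup.I
  refine Finsupp.sum_add_index' (fun P => ?_) (fun P n n' => ?_)
  · simp [Finsupp.sum]
  · rw [← Finsupp.sum_add]
    refine Finsupp.sum_congr fun Q _ => ?_
    push_cast
    ring

theorem I_neg_left (D E : Divisor Qb F) : S.I (-D) E = - S.I D E := by
  have h := S.I_add_left (-D) D E
  have h0 : S.I (0 : Divisor Qb F) E = 0 := by simp [Setup.I]
  rw [neg_add_cancel, h0] at h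
  linarith

theorem I_sub_left (D D' E : Divisor Qb F) : S.I (D - D') E = S.I D E - S.I D' E := by
  rw [sub_eq_add_neg, I_add_left, I_neg_left, sub_eq_add_neg]

theorem I_add_right (D E E' : Divisor Qb F) : S.I D (E + E') = S.I D E + S.I D E' := by
  rw [I_comm, I_add_left, I_comm S E, I_comm S E']

theorem I_sub_right (D E E' : Divisor Qb F) : S.I D (E - E') = S.I D E - S.I D E' := by
  rw [I_comm, I_sub_left, I_comm S E, I_comm S E']

theorem I_single_single (P Q : Place Qb F) (n m : ℤ) :
    S.I (Finsupp.single P n) (Finsupp.single Q m) = n * m * S.hD P Q := by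
  unfold Setup.I
  rw [Finsupp.sum_single_index, Finsupp.sum_single_index]
  · simp
  · simp [Finsupp.sum]

theorem I_eq_sum_right (D E : Divisor Qb F) :
    S.I D E = E.sum fun Q m => (m : ℝ) * S.I D (Finsupp.single Q 1) := by
  unfold Setup.I
  rw [Finsupp.sum_comm]
  refine Finsupp.sum_congr fun Q _ => ?_
  rw [Finsupp.mul_sum]
  refine Finsupp.sum_congr fun P _ => ?_
  rw [Finsupp.sum_single_index]
  · push_cast
    ring
  · simp

theorem I_zero_left (E : Divisor Qb F) : S.I (0 : Divisor Qb F) E = 0 := by simp [Setup.I]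

theorem I_sum_left {J : Type*} (s : Finset J) (f : J → Divisor Qb F) (E : Divisor Qb F) :
    S.I (∑ j ∈ s, f j) E = ∑ j ∈ s, S.I (f j) E := by
  classical
  induction s using Finset.induction_on with
  | empty => simp [I_zero_left]
  | insert a s ha ih => rw [Finset.sum_insert ha, Finset.sum_insert ha, I_add_left, ih]

theorem I_sumDiv_left {J : Type*} [Fintype J] (Y : J → Place Qb F) (E : Divisor Qb F) :
    S.I (S27.sumDiv Y) E = ∑ j, S.I (Finsupp.single (Y j) 1) E := by
  rw [S27.sumDiv, I_sum_left]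

theorem hdiv_add (D E : Divisor Qb F) : S.hdiv (D + E) = S.hdiv D + S.hdiv E := by
  unfold Setup.hdiv
  refine Finsupp.sum_add_index' (fun P => ?_) (fun P n n' => ?_)
  · simp
  · push_cast
    ring

theorem hdiv_sumDiv {J : Type*} [Fintype J] (Y : J → Place Qb F) :
    S.hdiv (S27.sumDiv Y) = ∑ j, S.h 1 (Y j) := by
  classical
  have key : ∀ s : Finset J, S.hdiv (∑ j ∈ s, Finsupp.single (Y j) 1) = ∑ j ∈ s, S.h 1 (Y j) := by
    intro s
    induction s using Finset.induction_on with
    | empty => simp [Setup.hdiv]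
    | insert a s ha ih =>
      rw [Finset.sum_insert ha, Finset.sum_insert ha, hdiv_add, ih]
      congr 1
      unfold Setup.hdiv
      rw [Finsupp.sum_single_index]
      · simp
      · simp
  exact key Finset.univ

theorem hdiv_nonneg {D : Divisor Qb F} (hD : 0 ≤ D) : 0 ≤ S.hdiv D := by
  unfold Setup.hdiv
  refine Finset.sum_nonneg fun P _ => mul_nonneg ?_ (habs_nonneg _)
  exact_mod_cast hD P

/-- `h_1(P) ≤ hdiv D` for `P` in the support of an effective `D`. -/
theorem h_le_hdiv {D : Divisor Qb F} (hD : 0 ≤ D) {P : Place Qb F} (hP : P ∈ D.support) :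
    S.h 1 P ≤ S.hdiv D := by
  unfold Setup.hdiv
  have h1 : (D P : ℝ) * S.h 1 P ≤ D.sum fun P n => (n : ℝ) * S.h 1 P :=
    Finset.single_le_sum (f := fun P => (D P : ℝ) * S.h 1 P)
      (fun Q _ => mul_nonneg (by exact_mod_cast hD Q) (habs_nonneg _)) hP
  refine le_trans ?_ h1
  have h2 : (1 : ℤ) ≤ D P := by
    have h3 : 0 ≤ D P := hD P
    have h4 : D P ≠ 0 := Finsupp.mem_support_iff.1 hP
    omega
  have h5 : (1 : ℝ) ≤ (D P : ℝ) := by exact_mod_cast h2
  have h6 : 0 ≤ S.h 1 P := habs_nonneg _
  nlinarith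

end Setup

end Fermat.Agent.MW
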