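import Fermat.Agent.S17.Curve.Basic
import Fermat.Agent.S17.Height.MHPoly

/-!
# S17, layer 1: the cone over the curve is closed   [WP CURVE-CONE]

`S.cone m = {c • x_m(P)} ∪ {0}` is the zero set of the homogeneous relations between the `S.bas m i`.
Proof of `⊇`: `v ≠ 0` a zero of all relations, `v i₀ ≠ 0`; `b_i / b_{i₀} ↦ v i / v i₀` is a well defined `ℚ̄`-algebra
homomorphism on `B = ℚ̄[b_i / b_{i₀}] ⊆ F`; its kernel is a nonzero maximal ideal; take a valuation subring of `F`
dominating the localisation (Mathlib: `LocalSubring`/`ValuationSubring` existence), it is a place by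
`S24.IsFiniteParam.exists_place_eq`; then `val_P (b_i / b_{i₀}) = v i / v i₀`, so `b_{i₀}` is exact at `P` and
`x_m(P)` is proportional to `v`.
-/

set_option autoImplicit false

namespace Fermat.Agent.MW

open AlgebraicCurve

/-- scaling of a homogeneous polynomial. -/
theorem aeval_mul_of_isHomogeneous {k A σ : Type*} [CommRing k] [CommRing A] [Algebra k A]
    [Fintype σ] {p : MvPolynomial σ k} {e : ℕ} (hp : p.IsHomogeneous e) (c : A) (u : σ → A) :
    MvPolynomial.aeval (fun i => c * u i) p = c ^ e * MvPolynomial.aeval u p := by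
  rw [MvPolynomial.aeval_def, MvPolynomial.aeval_def, MvPolynomial.eval₂_eq',
    MvPolynomial.eval₂_eq', Finset.mul_sum]
  refine Finset.sum_congr rfl fun d hd => ?_
  have h1 : ∑ i, d i = e := by
    have := hp (MvPolynomial.mem_support_iff.1 hd)
    rw [Finsupp.weight_apply, Finsupp.sum_fintype _ _ (by simp)] at this
    simpa using this
  simp only [mul_pow]
  rw [Finset.prod_mul_distrib, Finset.prod_pow_eq_pow_sum, h1]
  ring

theorem aeval_eq_eval' {k σ : Type*} [CommRing k] (u : σ → k) (p : MvPolynomial σ k) :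
    MvPolynomial.aeval u p = MvPolynomial.eval u p := by
  rw [MvPolynomial.aeval_def, MvPolynomial.eval, Algebra.algebraMap_self]
  rfl

/-- homogenisation with respect to the variable `i₀`. -/
noncomputable def homog {k σ : Type*} [CommRing k] (p : MvPolynomial σ k) (i₀ : σ) :
    MvPolynomial σ k :=
  ∑ d ∈ Finset.range (p.totalDegree + 1),
    MvPolynomial.homogeneousComponent d p * MvPolynomial.X i₀ ^ (p.totalDegree - d)

theorem homog_isHomogeneous {k σ : Type*} [CommRing k] (p : MvPolynomial σ k) (i₀ : σ) :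
    (homog p i₀).IsHomogeneous p.totalDegree := by
  refine MvPolynomial.IsHomogeneous.sum _ _ _ fun d hd => ?_
  have h1 := (MvPolynomial.homogeneousComponent_isHomogeneous d p).mul
    ((MvPolynomial.isHomogeneous_X k i₀).pow (p.totalDegree - d))
  have h2 : d + 1 * (p.totalDegree - d) = p.totalDegree := by
    have := Finset.mem_range.1 hd
    omega
  rwa [h2] at h1

theorem aeval_homog {k σ A : Type*} [Field k] [Fintype σ] [Field A] [Algebra k A]
    (p : MvPolynomial σ k) (i₀ : σ) (z : σ → A) (hz : z i₀ ≠ 0) :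
    MvPolynomial.aeval z (homog p i₀) =
      z i₀ ^ p.totalDegree * MvPolynomial.aeval (fun i => z i / z i₀) p := by
  have hsum : MvPolynomial.aeval (fun i => z i / z i₀) p =
      ∑ d ∈ Finset.range (p.totalDegree + 1),
        MvPolynomial.aeval (fun i => z i / z i₀) (MvPolynomial.homogeneousComponent d p) := by
    rw [← map_sum, MvPolynomial.sum_homogeneousComponent p]
  rw [hsum, homog, map_sum, Finset.mul_sum]
  refine Finset.sum_congr rfl fun d hd => ?_
  have h1 := aeval_mul_of_isHomogeneous (MvPolynomial.homogeneousComponent_isHomogeneous d p)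
    (z i₀) (fun i => z i / z i₀)
  have h2 : (fun i => z i₀ * (z i / z i₀)) = z := by
    funext i
    field_simp
  rw [h2] at h1
  rw [map_mul, map_pow, MvPolynomial.aeval_X, h1]
  have h3 : z i₀ ^ p.totalDegree = z i₀ ^ d * z i₀ ^ (p.totalDegree - d) := by
    rw [← pow_add]
    congr 1
    have := Finset.mem_range.1 hd
    omega
  rw [h3]
  ring

variable {F : Type*} [Field F] [Algebra Qb F] [S27.IsFF Qb F]

omit [S27.IsFF Qb F] in
theorem adic_mv_aeval_le_one {σ : Type*} (P : Place Qb F) {y : σ → F}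
    (hy : ∀ i, P.adicValuation (y i) ≤ 1) (p : MvPolynomial σ Qb) :
    P.adicValuation (MvPolynomial.aeval y p) ≤ 1 := by
  induction p using MvPolynomial.induction_on with
  | C a =>
    rw [MvPolynomial.aeval_C]
    exact P.adicValuation_algebraMap_le_one a
  | add p q hp hq =>
    rw [map_add]
    exact (Valuation.map_add _ _ _).trans (max_le hp hq)
  | mul_X p i hp =>
    rw [map_mul, MvPolynomial.aeval_X, map_mul]
    exact mul_le_one' hp (hy i)

theorem val_mv_aeval {σ : Type*} (P : Place Qb F) {y : σ → F}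
    (hy : ∀ i, P.adicValuation (y i) ≤ 1) (p : MvPolynomial σ Qb) :
    S27.val P (MvPolynomial.aeval y p) = MvPolynomial.eval (fun i => S27.val P (y i)) p := by
  induction p using MvPolynomial.induction_on with
  | C a =>
    rw [MvPolynomial.aeval_C, S27.val_algebraMap, MvPolynomial.eval_C]
  | add p q hp hq =>
    rw [map_add, S27.val_add P (adic_mv_aeval_le_one P hy p) (adic_mv_aeval_le_one P hy q), hp, hq,
      map_add]
  | mul_X p i hp =>
    rw [map_mul, MvPolynomial.aeval_X, S27.val_mul P (adic_mv_aeval_le_one P hy p) (hy i), hp,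
      map_mul, MvPolynomial.eval_X]

/-- a proper valuation subring of `F` containing the constants is a place. -/
theorem exists_place_of_valuationSubring (O : ValuationSubring F)
    (hK : ∀ a : Qb, algebraMap Qb F a ∈ O) (hO : O ≠ ⊤) :
    ∃ v : Place Qb F, v.toValuationSubring = O := by
  obtain ⟨x, hx⟩ := S27.IsFF.exists_param (K := Qb) (F := F)
  rcases O.mem_or_inv_mem x with h | h
  · exact hx.exists_place_eq O hK h hO
  · exact hx.inv.exists_place_eq O hK h hO

namespace Setup

variable (S : Setup F)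

theorem adic_bas_mul_loc (m : ℕ) (P : Place Qb F) (i : Fin (S.n m)) :
    P.adicValuation (S.bas m i * S.loc P ^ m) ≤ 1 := by
  have := S.adic_evT_le_one (S.mem_V_iff_sub_zero.1 (S.bas_mem m i)) P
  simpa using this

theorem x_apply (m : ℕ) (P : Place Qb F) (i : Fin (S.n m)) :
    S.x m P i = S27.val P (S.bas m i * S.loc P ^ m) := by
  unfold x ev evT
  simp

/-- evaluation of a homogeneous polynomial at `x_m(P)`. -/
theorem eval_x_eq_ev (m : ℕ) {p : MvPolynomial (Fin (S.n m)) Qb} {e : ℕ} (hp : p.IsHomogeneous e)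
    (P : Place Qb F) :
    MvPolynomial.eval (S.x m P) p = S.ev (e * m) P (MvPolynomial.aeval (S.bas m) p) := by
  have h1 := val_mv_aeval P (S.adic_bas_mul_loc m P) p
  have h2 : (fun i => S27.val P (S.bas m i * S.loc P ^ m)) = S.x m P := by
    funext i
    rw [S.x_apply]
  rw [h2] at h1
  rw [← h1]
  unfold ev evT
  have h3 := aeval_mul_of_isHomogeneous hp (S.loc P ^ m) (S.bas m)
  congr 1
  simp only [Finsupp.coe_zero, Pi.zero_apply, neg_zero, zpow_zero, mul_one]
  rw [mul_comm e m, pow_mul, mul_comm _ ((S.loc P ^ m) ^ e), ← h3]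
  congr 2
  funext i
  ring

theorem bas_ne_zero (m : ℕ) (i : Fin (S.n m)) : S.bas m i ≠ 0 := by
  intro h
  have := (Module.finBasis Qb (S.V m)).ne_zero i
  apply this
  exact Subtype.ext h

theorem bas_injective_smul {m : ℕ} {i j : Fin (S.n m)} {c : Qb} (h : S.bas m i = c • S.bas m j) :
    i = j := by
  classical
  by_contra hij
  have h1 : S.sec m (Pi.single i 1 - c • Pi.single j 1) = 0 := by
    unfold sec
    simp only [Pi.sub_apply, Pi.smul_apply, sub_smul, Finset.sum_sub_distrib, Pi.single_apply,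
      smul_eq_mul, mul_ite, mul_one, mul_zero, ite_smul, one_smul, zero_smul,
      Finset.sum_ite_eq', Finset.mem_univ, if_true]
    rw [h, sub_self]
  rw [S.sec_eq_zero_iff] at h1
  have h2 := congrFun h1 i
  simp [hij] at h2

omit [Algebra Qb F] [S27.IsFF Qb F] in
theorem inv_notMem_of_mem_nonunits {B : ValuationSubring F} {f : F} (hf : f ∈ B.nonunits)
    (h0 : f ≠ 0) : f⁻¹ ∉ B := by
  intro h
  rw [← B.valuation_le_one_iff, map_inv₀,
    inv_le_one₀ (zero_lt_iff.2 ((Valuation.ne_zero_iff _).2 h0))] at h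
  exact absurd (B.mem_nonunits_iff.1 hf) (not_lt.2 h)

theorem mem_cone_of_relations {m : ℕ} (hm : 1 ≤ m) {v : Fin (S.n m) → Qb}
    (hv : ∀ (p : MvPolynomial (Fin (S.n m)) Qb) (e : ℕ), p.IsHomogeneous e →
      MvPolynomial.aeval (S.bas m) p = 0 → MvPolynomial.eval v p = 0) : v ∈ S.cone m := by
  classical
  by_cases hv0 : v = 0
  · exact Or.inl hv0
  right
  obtain ⟨i₀, hi₀⟩ := Function.ne_iff.1 hv0
  have hi₀' : v i₀ ≠ 0 := hi₀
  have hb0 := S.bas_ne_zero m i₀
  let y : Fin (S.n m) → F := fun i => S.bas m i / S.bas m i₀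
  let w : Fin (S.n m) → Qb := fun i => v i / v i₀
  -- relations between the `y i` vanish at `w`
  have hrel : ∀ p : MvPolynomial (Fin (S.n m)) Qb, MvPolynomial.aeval y p = 0 →
      MvPolynomial.eval w p = 0 := by
    intro p hp
    have h1 := aeval_homog p i₀ (S.bas m) hb0
    rw [show (fun i => S.bas m i / S.bas m i₀) = y from rfl, hp, mul_zero] at h1
    have h2 := hv _ _ (homog_isHomogeneous p i₀) h1
    have h3 := aeval_homog p i₀ v hi₀'
    rw [aeval_eq_eval', aeval_eq_eval'] at h3
    change MvPolynomial.eval v (homog p i₀) = _ * MvPolynomial.eval w p at h3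
    rw [h2] at h3
    exact (mul_eq_zero.1 h3.symm).resolve_left (pow_ne_zero _ hi₀')
  let A : Subring F :=
    (MvPolynomial.aeval y : MvPolynomial (Fin (S.n m)) Qb →ₐ[Qb] F).range.toSubring
  have hyA : ∀ i, y i - algebraMap Qb F (w i) ∈ A := fun i =>
    ⟨MvPolynomial.X i - MvPolynomial.C (w i), by simp⟩
  let I : Ideal A := Ideal.span (Set.range fun i => (⟨_, hyA i⟩ : A))
  have hI : I ≠ ⊤ := by
    intro h
    have h1 : (1 : A) ∈ I := by rw [h]; trivial
    rw [Ideal.mem_span_range_iff_exists_fun] at h1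
    obtain ⟨c, hc⟩ := h1
    have hc' : ∀ i, ∃ p : MvPolynomial (Fin (S.n m)) Qb, MvPolynomial.aeval y p = (c i : F) :=
      fun i => (c i).2
    choose p hp using hc'
    have h2 : MvPolynomial.aeval y
        (1 - ∑ i, p i * (MvPolynomial.X i - MvPolynomial.C (w i))) = 0 := by
      have h3 := congrArg (Subtype.val) hc
      simp only [map_sub, map_one, map_sum, map_mul, hp, MvPolynomial.aeval_X,
        MvPolynomial.aeval_C]
      rw [sub_eq_zero]
      rw [← Subring.subtype_apply, map_sum] at h3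
      exact h3.symm
    have h3 := hrel _ h2
    simp at h3
  obtain ⟨B, hAB, hIB⟩ := Ideal.image_subset_nonunits_valuationSubring I hI
  have hnon : ∀ i, y i - algebraMap Qb F (w i) ∈ B.nonunits := fun i =>
    hIB ⟨⟨_, hyA i⟩, Ideal.subset_span ⟨i, rfl⟩, rfl⟩
  have hK : ∀ a : Qb, algebraMap Qb F a ∈ B := fun a => hAB ⟨MvPolynomial.C a, by simp⟩
  have hn2 : 2 ≤ S.n m := by
    have h1 := S.n_eq hm
    have h2 := S.ha
    have h3 : (S.a : ℤ) ≤ m * S.a := by
      have : (1 : ℤ) ≤ m := by exact_mod_cast hm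
      nlinarith
    have h4 : (2 * genusFF Qb F + 2 : ℤ) ≤ S.a := by exact_mod_cast h2
    have h5 : (2 : ℤ) ≤ S.n m := by linarith
    exact_mod_cast h5
  obtain ⟨i₁, hi₁⟩ : ∃ i₁ : Fin (S.n m), i₁ ≠ i₀ := by
    have : Nontrivial (Fin (S.n m)) := Fin.nontrivial_iff_two_le.2 hn2
    exact exists_ne i₀
  have hne : y i₁ - algebraMap Qb F (w i₁) ≠ 0 := by
    intro h
    apply hi₁
    apply S.bas_injective_smul (c := w i₁)
    rw [sub_eq_zero] at h
    rw [Algebra.smul_def, ← h]
    simp only [y]
    field_simp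
  have hB : B ≠ ⊤ := by
    rintro rfl
    exact inv_notMem_of_mem_nonunits (hnon i₁) hne trivial
  obtain ⟨P, hP⟩ := exists_place_of_valuationSubring B hK hB
  have hlt : ∀ i, P.adicValuation (y i - algebraMap Qb F (w i)) < 1 := by
    intro i
    rw [S27.adic_lt_one_iff_ord]
    by_cases h0 : y i - algebraMap Qb F (w i) = 0
    · exact Or.inl h0
    right
    have h1 : y i - algebraMap Qb F (w i) ∈ P.toValuationSubring := by
      rw [hP]
      exact hAB (hyA i)
    have h2 : (y i - algebraMap Qb F (w i))⁻¹ ∉ P.toValuationSubring := by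
      rw [hP]
      exact inv_notMem_of_mem_nonunits (hnon i) h0
    rw [S24.Place.mem_iff_ord_nonneg P h0] at h1
    rw [S24.Place.mem_iff_ord_nonneg P (inv_ne_zero h0), P.ord_inv] at h2
    omega
  have hval : ∀ i, S27.val P (y i) = w i := fun i => S27.val_unique P (hlt i)
  have hyle : ∀ i, P.adicValuation (y i) ≤ 1 := by
    intro i
    have : y i = (y i - algebraMap Qb F (w i)) + algebraMap Qb F (w i) := by ring
    rw [this]
    exact (Valuation.map_add _ _ _).trans
      (max_le (hlt i).le (P.adicValuation_algebraMap_le_one _))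
  have hx : ∀ i, S.x m P i = w i * S.x m P i₀ := by
    intro i
    rw [S.x_apply, S.x_apply, ← hval i, ← S27.val_mul P (hyle i) (S.adic_bas_mul_loc m P i₀)]
    congr 1
    simp only [y]
    field_simp
  have hx0 : S.x m P i₀ ≠ 0 := by
    intro h
    apply S.x_ne_zero m P
    funext i
    rw [hx i, h, mul_zero]
    rfl
  refine ⟨P, v i₀ / S.x m P i₀, ?_⟩
  funext i
  rw [Pi.smul_apply, hx i, smul_eq_mul]
  simp only [w]
  field_simp

/-- **the cone over the curve is closed.** -/
theorem isHClosed_cone {m : ℕ} (hm : 1 ≤ m) : IsHClosed (S.cone m) := by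
  refine ⟨{p | (∃ e, p.IsHomogeneous e) ∧ MvPolynomial.aeval (S.bas m) p = 0},
    fun p hp => hp.1, ?_⟩
  ext v
  constructor
  · intro hv p hp
    obtain ⟨⟨e, he⟩, h0⟩ := hp
    obtain ⟨P, c, rfl⟩ : ∃ (P : Place Qb F) (c : Qb), v = c • S.x m P := by
      rcases hv with rfl | h
      · exact ⟨S.Pinf, 0, by simp⟩
      · exact h
    have h1 := aeval_mul_of_isHomogeneous he c (S.x m P)
    rw [aeval_eq_eval', aeval_eq_eval'] at h1
    change MvPolynomial.eval (c • S.x m P) p = _ * MvPolynomial.eval (S.x m P) p at h1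
    rw [h1, S.eval_x_eq_ev m he P, h0]
    unfold ev
    rw [S.evT_zero, mul_zero]
  · intro hv
    exact S.mem_cone_of_relations hm fun p e he h0 => hv p ⟨⟨e, he⟩, h0⟩

/-- products of cones. -/
theorem isMClosed_cone_pi (J : Type*) {m : ℕ} (hm : 1 ≤ m) :
    IsMClosed {z : J → Fin (S.n m) → Qb | ∀ j, z j ∈ S.cone m} :=
  IsMClosed.of_blocks (fun _ => S.cone m) fun _ => S.isHClosed_cone hm

end Setup

end Fermat.Agent.MW
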