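import Fermat.Agent.S17.Curve.RRBpf

/-!
# S17 route F, layer 1: consequences of Riemann-Roch   [WP F-RR-PENCIL]

Proofs.  `exists_pencil`: `s₀ ≠ 0` any element of `W`; its extra zeros (places with `ord s₀ ≠ -D P`) are finitely many; `exists_avoid`.
`mul_L_eq`: `s₀ L(D') + s₁ L(D')` has dimension `2 l(D') - l(D' - D) = l(D + D')` (the kernel of `(f,g) ↦ s₀ f + s₁ g` is
`{(s₁ h, - s₀ h) : h ∈ L(D' - D)}`; `deg D ≥ 0`; all three divisors are non special: `finrank_L_eq`).
-/

set_option autoImplicit false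

namespace Fermat.Agent.MW

open AlgebraicCurve Module

variable {K F : Type*} [Field K] [Field F] [Algebra K F] [IsAlgClosed K] [CharZero K] [S27.IsFF K F]

/-! ### [RR-PENCIL] -/

/-- a base point free system contains a base point free pencil. -/
theorem IsBPF.exists_pencil {D : Divisor K F} {W : Submodule K F} (hW : IsBPF D W) :
    ∃ s₀ ∈ W, ∃ s₁ ∈ W, s₀ ≠ 0 ∧ ∀ P : Place K F, P.ord s₀ = - D P ∨ (s₁ ≠ 0 ∧ P.ord s₁ = - D P) := by
  classical
  obtain ⟨P₀⟩ := RR.IsFF1.nonempty_place (K := K) (F := F)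
  obtain ⟨s₀, hs₀W, hs₀, -⟩ := hW.2 P₀
  have hfin : {P : Place K F | P.ord s₀ ≠ - D P}.Finite := by
    refine ((RR.finite_ord_ne_zero (K := K) s₀).union D.support.finite_toSet).subset ?_
    intro P hP
    by_contra hcon
    simp only [Set.mem_union, Set.mem_ofPred_eq, Finset.mem_coe, Finsupp.mem_support_iff, not_or,
      not_not] at hcon
    apply hP
    rw [hcon.1, hcon.2, neg_zero]
  obtain ⟨s₁, hs₁W, hs₁, h₁⟩ := hW.exists_avoid hfin.toFinset
  refine ⟨s₀, hs₀W, s₁, hs₁W, hs₀, fun P => ?_⟩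
  by_cases hP : P.ord s₀ = - D P
  · exact Or.inl hP
  · exact Or.inr ⟨hs₁, h₁ P (hfin.mem_toFinset.2 hP)⟩

omit [IsAlgClosed K] [CharZero K] [S27.IsFF K F] in
theorem le_ord_of_mem_L {D : Divisor K F} {f : F} (hf : f ∈ riemannRochSpace D) (hf0 : f ≠ 0)
    (P : Place K F) : - D P ≤ P.ord f :=
  ((mem_riemannRochSpace_iff.1 hf) P).resolve_left hf0

omit [IsAlgClosed K] [CharZero K] [S27.IsFF K F] in
theorem mul_mem_L_add {D D' : Divisor K F} {s t : F} (hs : s ∈ riemannRochSpace D)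
    (ht : t ∈ riemannRochSpace D') : s * t ∈ riemannRochSpace (D + D') := by
  rw [mem_riemannRochSpace_iff]
  intro P
  by_cases hs0 : s = 0
  · left; rw [hs0, zero_mul]
  by_cases ht0 : t = 0
  · left; rw [ht0, mul_zero]
  right
  rw [P.ord_mul hs0 ht0, Finsupp.add_apply]
  have h1 := le_ord_of_mem_L hs hs0 P
  have h2 := le_ord_of_mem_L ht ht0 P
  omega

/-- the map `(f, g) ↦ s₀ f + s₁ g`. -/
noncomputable def pencilMap (D' : Divisor K F) (s₀ s₁ : F) :
    (riemannRochSpace D' × riemannRochSpace D') →ₗ[K] F :=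
  ((LinearMap.mulLeft K s₀).comp (riemannRochSpace D').subtype).coprod
    ((LinearMap.mulLeft K s₁).comp (riemannRochSpace D').subtype)

omit [IsAlgClosed K] [CharZero K] [S27.IsFF K F] in
theorem pencilMap_apply (D' : Divisor K F) (s₀ s₁ : F)
    (x : riemannRochSpace D' × riemannRochSpace D') :
    pencilMap D' s₀ s₁ x = s₀ * (x.1 : F) + s₁ * (x.2 : F) := by
  simp [pencilMap]

/-- **base point free pencil trick**: `W · L(D') = L(D + D')` if `W` is base point free for `D` and
`deg D' - deg D ≥ 2g - 1`. -/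
theorem IsBPF.mul_L_eq {D D' : Divisor K F} {W : Submodule K F} (hW : IsBPF D W)
    (h : 2 * (genusFF K F : ℤ) - 1 ≤ Divisor.degree D' - Divisor.degree D)
    {f : F} (hf : f ∈ riemannRochSpace (D + D')) :
    f ∈ Submodule.span K {y : F | ∃ s ∈ W, ∃ t ∈ riemannRochSpace D', y = s * t} := by
  classical
  obtain ⟨s₀, hs₀W, s₁, hs₁W, hs₀, hP⟩ := hW.exists_pencil
  have hs₀L := hW.1 hs₀W
  have hs₁L := hW.1 hs₁W
  set S := Submodule.span K {y : F | ∃ s ∈ W, ∃ t ∈ riemannRochSpace D', y = s * t} with hS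
  by_cases hs₁ : s₁ = 0
  · -- `s₀` is exact everywhere
    have hex : ∀ P : Place K F, P.ord s₀ = - D P := fun P =>
      (hP P).resolve_right fun h' => h'.1 hs₁
    have ht : f * s₀⁻¹ ∈ riemannRochSpace D' := by
      rw [mem_riemannRochSpace_iff]
      intro P
      by_cases hf0 : f = 0
      · left; rw [hf0, zero_mul]
      right
      rw [P.ord_mul hf0 (inv_ne_zero hs₀), P.ord_inv, hex P]
      have := le_ord_of_mem_L hf hf0 P
      rw [Finsupp.add_apply] at this
      omega
    refine Submodule.subset_span ⟨s₀, hs₀W, _, ht, ?_⟩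
    rw [mul_comm f, mul_inv_cancel_left₀ hs₀]
  -- degrees
  have hdegD : 0 ≤ Divisor.degree D := by
    by_contra hneg
    have := RR.riemannRochSpace_eq_bot (K := K) (F := F) (D := D) (not_le.1 hneg)
    rw [this, Submodule.mem_bot] at hs₀L
    exact hs₀ hs₀L
  have e1 := finrank_L_eq (K := K) (F := F) (D := D') (by linarith)
  have e2 := finrank_L_eq (K := K) (F := F) (D := D' - D) (by rw [map_sub]; exact h)
  have e3 := finrank_L_eq (K := K) (F := F) (D := D + D') (by rw [map_add]; linarith)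
  rw [map_sub] at e2
  rw [map_add] at e3
  set Φ := pencilMap D' s₀ s₁ with hΦ
  -- the range is contained in `L(D + D')` and in `S`
  have hrangeL : LinearMap.range Φ ≤ riemannRochSpace (D + D') := by
    rintro _ ⟨x, rfl⟩
    rw [hΦ, pencilMap_apply]
    exact add_mem (mul_mem_L_add hs₀L x.1.2) (mul_mem_L_add hs₁L x.2.2)
  have hrangeS : LinearMap.range Φ ≤ S := by
    rintro _ ⟨x, rfl⟩
    rw [hΦ, pencilMap_apply]
    exact add_mem (Submodule.subset_span ⟨s₀, hs₀W, _, x.1.2, rfl⟩)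
      (Submodule.subset_span ⟨s₁, hs₁W, _, x.2.2, rfl⟩)
  -- the kernel embeds in `L(D' - D)`
  have hker : ∀ x ∈ LinearMap.ker Φ, (x.1 : F) * s₁⁻¹ ∈ riemannRochSpace (D' - D) := by
    intro x hx
    rw [LinearMap.mem_ker, hΦ, pencilMap_apply] at hx
    rw [mem_riemannRochSpace_iff]
    intro P
    by_cases hx1 : (x.1 : F) = 0
    · left; rw [hx1, zero_mul]
    right
    have hx2 : (x.2 : F) ≠ 0 := by
      intro h2
      rw [h2, mul_zero, add_zero] at hx
      exact hx1 ((mul_eq_zero.1 hx).resolve_left hs₀)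
    have hord : P.ord s₀ + P.ord (x.1 : F) = P.ord s₁ + P.ord (x.2 : F) := by
      rw [← P.ord_mul hs₀ hx1, ← P.ord_mul hs₁ hx2]
      have : s₀ * (x.1 : F) = -(s₁ * (x.2 : F)) := by linear_combination hx
      rw [this, S24.Place.ord_neg]
    rw [P.ord_mul hx1 (inv_ne_zero hs₁), P.ord_inv, Finsupp.sub_apply]
    have h1 := le_ord_of_mem_L x.1.2 hx1 P
    have h2 := le_ord_of_mem_L x.2.2 hx2 P
    rcases hP P with h0 | ⟨-, h0⟩
    · omega
    · omega
  let ψ : LinearMap.ker Φ →ₗ[K] riemannRochSpace (D' - D) :=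
    { toFun := fun x => ⟨(x.1.1 : F) * s₁⁻¹, hker x.1 x.2⟩
      map_add' := fun x y => Subtype.ext (by simp [add_mul])
      map_smul' := fun c x => Subtype.ext (by simp [Algebra.smul_def, mul_assoc]) }
  have hψ : Function.Injective ψ := by
    intro x y hxy
    have h1 : (x.1.1 : F) * s₁⁻¹ = (y.1.1 : F) * s₁⁻¹ := congrArg Subtype.val hxy
    have h2 : (x.1.1 : F) = (y.1.1 : F) := mul_right_cancel₀ (inv_ne_zero hs₁) h1
    have h3 : s₀ * (x.1.1 : F) + s₁ * (x.1.2 : F) = 0 := by
      rw [← pencilMap_apply]; exact LinearMap.mem_ker.1 x.2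
    have h3' : s₀ * (y.1.1 : F) + s₁ * (y.1.2 : F) = 0 := by
      rw [← pencilMap_apply]; exact LinearMap.mem_ker.1 y.2
    have h4 : (x.1.2 : F) = (y.1.2 : F) := by
      apply mul_left_cancel₀ hs₁
      rw [h2] at h3
      linear_combination h3 - h3'
    apply Subtype.ext
    exact Prod.ext (Subtype.ext h2) (Subtype.ext h4)
  have hkerle := LinearMap.finrank_le_finrank_of_injective hψ
  have hrn := LinearMap.finrank_range_add_finrank_ker Φ
  rw [Module.finrank_prod] at hrn
  have hle : finrank K (riemannRochSpace (D + D')) ≤ finrank K (LinearMap.range Φ) := by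
    zify at hkerle hrn ⊢
    linarith
  have heq : LinearMap.range Φ = riemannRochSpace (D + D') :=
    Submodule.eq_of_le_of_finrank_le hrangeL hle
  exact hrangeS (heq ▸ hf)

end Fermat.Agent.MW
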