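import Fermat.Agent.S17.Curve.RRBpf
import Fermat.Agent.S17.Curve.RRPencil
import Fermat.Agent.RR.Hurwitz

/-!
# S17 route F, layer 1: consequences of Riemann-Roch   [WP F-RR-BERTINI]

Proof.  Base point free pencil `s₀, s₁ ∈ L(D)`, `φ = s₁/s₀`.  `Z(s₁ - c s₀)(P) = max 0 (ord_P (φ - c))` at the places where `s₀` is exact,
`0` elsewhere.  `φ` non constant if `deg D > 0`; `ord_P(φ - φ(P)) ≥ 2` iff `ordDifferential_P (dφ) ≥ 1`
(`RR.ordDifferential_D_eq`), which happens for finitely many `P` (`RR.finite_ordDifferential_ne_zero`, `dφ ≠ 0` in char. 0).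
So all but finitely many `c` work.
-/

set_option autoImplicit false

namespace Fermat.Agent.MW

open AlgebraicCurve Module KaehlerDifferential

variable {K F : Type*} [Field K] [Field F] [Algebra K F] [IsAlgClosed K] [CharZero K] [S27.IsFF K F]

/-! ### [RR-BERTINI] -/

variable (K F) in
theorem finrank_kaehler_eq_one : Module.finrank F Ω[F⁄K] = 1 := by
  obtain ⟨x, hx⟩ := S27.IsFF.exists_param (K := K) (F := F)
  have := hx.finite
  exact RR.finrank_kaehler_of_isSeparable (x := x)

theorem D_ne_zero_of_nonconst {φ : F} (hφ : φ ∉ Set.range (algebraMap K F)) : D K F φ ≠ 0 := by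
  obtain ⟨x, hx⟩ := S27.IsFF.exists_param (K := K) (F := F)
  have hp := hx.of_not_mem_range hφ
  have := hp.finite
  exact RR.D_ne_zero_of_isSeparable

/-- **Bertini for a pencil** (characteristic zero). -/
theorem exists_reduced_of_pencil {D : Divisor K F} {s₀ s₁ : F} (hs₀ : s₀ ∈ riemannRochSpace D)
    (hs₁ : s₁ ∈ riemannRochSpace D) (hs₀0 : s₀ ≠ 0)
    (hP : ∀ P : Place K F, P.ord s₀ = - D P ∨ (s₁ ≠ 0 ∧ P.ord s₁ = - D P))
    (T : Finset (Place K F)) :
    ∃ f ∈ Submodule.span K {s₀, s₁}, f ≠ 0 ∧ (∀ P, (S27.divOf (K := K) f + D) P ≤ 1) ∧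
      ∀ P ∈ T, (S27.divOf (K := K) f + D) P = 0 := by
  classical
  have h1 := finrank_kaehler_eq_one K F
  set φ := s₁ / s₀ with hφdef
  have hs₁φ : s₁ = φ * s₀ := by rw [hφdef, div_mul_cancel₀ _ hs₀0]
  by_cases hφ : φ ∈ Set.range (algebraMap K F)
  · obtain ⟨c, hc⟩ := hφ
    have hex : ∀ P : Place K F, P.ord s₀ = - D P := by
      intro P
      rcases hP P with h | ⟨h1, h2⟩
      · exact h
      · have hc0 : algebraMap K F c ≠ 0 := by
          intro h0
          rw [hs₁φ, ← hc, h0, zero_mul] at h1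
          exact h1 rfl
        rw [hs₁φ, ← hc, P.ord_mul hc0 hs₀0, S24.Place.ord_algebraMap, zero_add] at h2
        exact h2
    refine ⟨s₀, Submodule.subset_span (by simp), hs₀0, fun P => ?_, fun P _ => ?_⟩
    · rw [Finsupp.add_apply, S27.divOf_apply, hex P]; omega
    · rw [Finsupp.add_apply, S27.divOf_apply, hex P]; omega
  · have hD := D_ne_zero_of_nonconst hφ
    have hfin := RR.finite_ordDifferential_ne_zero h1 hD
    set R := hfin.toFinset ∪ T with hR
    obtain ⟨c, hc⟩ := Infinite.exists_notMem_finset (R.image fun P => S27.val P φ)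
    set f := s₁ - algebraMap K F c * s₀ with hf
    have hφc : φ - algebraMap K F c ≠ 0 := fun h0 => hφ ⟨c, (sub_eq_zero.1 h0).symm⟩
    have hfφ : f = s₀ * (φ - algebraMap K F c) := by rw [hf, hs₁φ]; ring
    have hf0 : f ≠ 0 := by rw [hfφ]; exact mul_ne_zero hs₀0 hφc
    have hfL : f ∈ riemannRochSpace D :=
      sub_mem hs₁ (by rw [← Algebra.smul_def]; exact Submodule.smul_mem _ _ hs₀)
    have hfS : f ∈ Submodule.span K {s₀, s₁} := by
      refine sub_mem (Submodule.subset_span (by simp)) ?_
      rw [← Algebra.smul_def]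
      exact Submodule.smul_mem _ _ (Submodule.subset_span (by simp))
    -- the value of the zero divisor
    have key : ∀ P : Place K F, (S27.divOf (K := K) f + D) P = 0 ∨
        ((S27.divOf (K := K) f + D) P = 1 ∧ P ∉ T) := by
      intro P
      rw [Finsupp.add_apply, S27.divOf_apply]
      have hge := le_ord_of_mem_L hfL hf0 P
      by_cases hex : P.ord s₀ = - D P
      · have hord : P.ord f = - D P + P.ord (φ - algebraMap K F c) := by
          rw [hfφ, P.ord_mul hs₀0 hφc, hex]
        by_cases hpos : 0 < P.ord (φ - algebraMap K F c)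
        · right
          have hval : S27.val P φ = c :=
            S27.val_unique P ((S27.adic_lt_one_iff_ord P).2 (Or.inr hpos))
          have hPR : P ∉ R := fun hPR => hc (Finset.mem_image.2 ⟨P, hPR, hval⟩)
          rw [hR, Finset.mem_union, not_or, Set.Finite.mem_toFinset] at hPR
          have hz : P.ordDifferential (KaehlerDifferential.D K F φ) = 0 := by
            by_contra hne
            exact hPR.1 hne
          have hne : ((P.ord (φ - algebraMap K F c) : ℤ) : K) ≠ 0 := by
            rw [Int.cast_ne_zero]; omega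
          have := RR.ordDifferential_D_eq h1 P hne
          rw [map_sub, Derivation.map_algebraMap, sub_zero, hz] at this
          exact ⟨by omega, hPR.2⟩
        · left; omega
      · left
        obtain ⟨hs₁0, hs₁e⟩ := (hP P).resolve_left hex
        have hge0 := le_ord_of_mem_L hs₀ hs₀0 P
        by_cases hc0 : c = 0
        · rw [hf, hc0, map_zero, zero_mul, sub_zero, hs₁e]; omega
        · have hcF : algebraMap K F c ≠ 0 := (map_ne_zero _).2 hc0
          have hB : -(algebraMap K F c * s₀) ≠ 0 := neg_ne_zero.2 (mul_ne_zero hcF hs₀0)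
          have hlt : P.ord s₁ < P.ord (-(algebraMap K F c * s₀)) := by
            rw [S24.Place.ord_neg, P.ord_mul hcF hs₀0, S24.Place.ord_algebraMap]
            omega
          rw [hf, sub_eq_add_neg, S24.Place.ord_add_eq_of_lt P hs₁0 hB hlt, hs₁e]
          omega
    refine ⟨f, hfS, hf0, fun P => ?_, fun P hPT => ?_⟩
    · rcases key P with h | ⟨h, -⟩ <;> omega
    · rcases key P with h | ⟨-, h⟩
      · exact h
      · exact absurd hPT h

/-- **Bertini** (characteristic zero): a general member of `|D|`, `deg D ≥ 2g`, is reduced and avoids a given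
finite set. -/
theorem exists_reduced_member {D : Divisor K F} (h : 2 * (genusFF K F : ℤ) ≤ Divisor.degree D)
    (T : Finset (Place K F)) :
    ∃ f ∈ riemannRochSpace D, f ≠ 0 ∧ (∀ P, (S27.divOf (K := K) f + D) P ≤ 1) ∧
      ∀ P ∈ T, (S27.divOf (K := K) f + D) P = 0 := by
  obtain ⟨s₀, hs₀, s₁, hs₁, hs₀0, hP⟩ := (isBPF_L h).exists_pencil
  obtain ⟨f, hfS, hf⟩ := exists_reduced_of_pencil hs₀ hs₁ hs₀0 hP T
  refine ⟨f, ?_, hf⟩
  refine (Submodule.span_le.2 ?_) hfS
  rintro x (rfl | rfl)
  · exact hs₀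
  · exact hs₁

end Fermat.Agent.MW
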