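import Fermat.Agent.S17.Curve.RRBpf

/-!
# S17 route F, layer 1: consequences of Riemann-Roch   [WP F-RR-E1]

Proof.  `l(D₀+E) = 1 ⟺ idx(D₀+E) = 0 ⟺ l(W - D₀ - E) = 0` (`RR.rr1`, `IsCanonical.idx_eq`).  Fix `4g` distinct places off `T`; list = all sums of `g`
of them (with repetitions).  Greedy choice: a nonzero `L(G)`, `deg G ≤ 2g-2`, has at most `2g-2` base points; at each of the `g` steps
choose a place which is a base point neither of `L(W - D₀ - E')` nor of `L(W + D₀ - E')` (when these are nonzero); both dimensions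
start `≤ g` and drop by one at each step until they are `0`.
-/

set_option autoImplicit false

namespace Fermat.Agent.MW

open AlgebraicCurve Module

variable {K F : Type*} [Field K] [Field F] [Algebra K F] [IsAlgClosed K] [CharZero K] [S27.IsFF K F]

/-! ### [RR-E1] -/

theorem card_support_le_degree {E : Divisor K F} (hE : 0 ≤ E) :
    (E.support.card : ℤ) ≤ Divisor.degree E := by
  rw [S27.degree_eq_sum E E.support subset_rfl]
  have h1 : ∀ v ∈ E.support, (1 : ℤ) ≤ E v := by
    intro v hv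
    have h0 : 0 ≤ E v := hE v
    have hne : E v ≠ 0 := Finsupp.mem_support_iff.1 hv
    omega
  calc (E.support.card : ℤ) = ∑ _v ∈ E.support, (1 : ℤ) := by simp
    _ ≤ _ := Finset.sum_le_sum h1

/-- the base points of a nonzero `L(G)` are at most `deg G`. -/
theorem exists_basePoints (G : Divisor K F) :
    ∃ B : Finset (Place K F), (B.card : ℤ) ≤ max 0 (Divisor.degree G) ∧
      ∀ P ∉ B, RR.ell (G - Finsupp.single P 1) + 1 ≤ RR.ell G ∨ RR.ell G = 0 := by
  classical
  by_cases h0 : RR.ell G = 0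
  · exact ⟨∅, by simp, fun P _ => Or.inr h0⟩
  obtain ⟨f, hf0, hf⟩ := RR.ell_pos_iff.1 (Nat.pos_of_ne_zero h0)
  have heff := S27.effective_of_mem_L hf0 hf
  refine ⟨(G + S27.divOf f).support, ?_, fun P hP => Or.inl ?_⟩
  · refine (card_support_le_degree heff).trans ?_
    rw [map_add, S27.degree_divOf hf0, add_zero]
    exact le_max_right _ _
  · have hPz : G P + P.ord f = 0 := by
      have := Finsupp.notMem_support_iff.1 hP
      rwa [Finsupp.add_apply, S27.divOf_apply] at this
    have hle : riemannRochSpace (G - Finsupp.single P 1) ≤ riemannRochSpace G :=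
      S27.L_mono (sub_le_self _ (Finsupp.single_nonneg.2 zero_le_one))
    have hlt : riemannRochSpace (G - Finsupp.single P 1) < riemannRochSpace G := by
      refine lt_of_le_of_ne hle fun heq => ?_
      rw [← heq] at hf
      have := ((mem_riemannRochSpace_iff.1 hf) P).resolve_left hf0
      rw [Finsupp.sub_apply, Finsupp.single_eq_same] at this
      omega
    exact Submodule.finrank_lt_finrank_of_lt hlt

theorem exists_kill (S : Finset (Place K F)) (N : ℕ) (hS : 2 * N < S.card) :
    ∀ (k : ℕ) (G₁ G₂ : Divisor K F), Divisor.degree G₁ ≤ N → Divisor.degree G₂ ≤ N →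
      RR.ell G₁ ≤ k → RR.ell G₂ ≤ k →
      ∃ Y : Fin k → Place K F, (∀ j, Y j ∈ S) ∧ RR.ell (G₁ - S27.sumDiv Y) = 0 ∧
        RR.ell (G₂ - S27.sumDiv Y) = 0 := by
  classical
  intro k
  induction k with
  | zero =>
    intro G₁ G₂ _ _ h1 h2
    refine ⟨Fin.elim0, fun j => j.elim0, ?_, ?_⟩
    · simpa [S27.sumDiv] using h1
    · simpa [S27.sumDiv] using h2
  | succ k ih =>
    intro G₁ G₂ hd1 hd2 h1 h2
    obtain ⟨B₁, hB₁, hb₁⟩ := exists_basePoints G₁
    obtain ⟨B₂, hB₂, hb₂⟩ := exists_basePoints G₂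
    have hcard : (B₁ ∪ B₂).card < S.card := by
      have h3 := Finset.card_union_le B₁ B₂
      have h4 : (B₁.card : ℤ) ≤ N := hB₁.trans (max_le (by positivity) hd1)
      have h5 : (B₂.card : ℤ) ≤ N := hB₂.trans (max_le (by positivity) hd2)
      omega
    obtain ⟨P, hPS, hPB⟩ := Finset.exists_mem_notMem_of_card_lt_card hcard
    rw [Finset.mem_union, not_or] at hPB
    have hmono : ∀ G : Divisor K F, RR.ell (G - Finsupp.single P 1) ≤ RR.ell G := fun G =>
      RR.ell_mono (sub_le_self _ (Finsupp.single_nonneg.2 zero_le_one))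
    have hk1 : RR.ell (G₁ - Finsupp.single P 1) ≤ k := by
      have := hmono G₁
      rcases hb₁ P hPB.1 with h | h <;> omega
    have hk2 : RR.ell (G₂ - Finsupp.single P 1) ≤ k := by
      have := hmono G₂
      rcases hb₂ P hPB.2 with h | h <;> omega
    obtain ⟨Y, hYS, hY1, hY2⟩ := ih (G₁ - Finsupp.single P 1) (G₂ - Finsupp.single P 1)
      (by rw [map_sub, S27.degree_single_one]; omega)
      (by rw [map_sub, S27.degree_single_one]; omega) hk1 hk2
    refine ⟨Fin.cons P Y, ?_, ?_, ?_⟩
    · intro j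
      refine Fin.cases ?_ (fun i => ?_) j
      · simpa using hPS
      · simpa using hYS i
    · rw [S27.NS.sumDiv_cons, ← sub_sub]; exact hY1
    · rw [S27.NS.sumDiv_cons, ← sub_sub]; exact hY2

/-- a finite list of effective divisors `E₁` of degree `g`, with supports off a given finite set, such that for every
divisor `D₀` of degree `0` some `E₁` of the list satisfies `l(D₀ + E₁) = 1 = l(-D₀ + E₁)`. -/
theorem exists_E1_list (T : Finset (Place K F)) :
    ∃ 𝓔 : Finset (Divisor K F), (∀ E ∈ 𝓔, 0 ≤ E ∧ Divisor.degree E = genusFF K F ∧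
        ∀ P ∈ T, E P = 0) ∧
      ∀ D₀ : Divisor K F, Divisor.degree D₀ = 0 → ∃ E ∈ 𝓔,
        finrank K (riemannRochSpace (D₀ + E)) = 1 ∧ finrank K (riemannRochSpace (-D₀ + E)) = 1 := by
  classical
  set g := genusFF K F with hg
  have := S27.infinite_places (K := K) (F := F)
  obtain ⟨S, hST, hScard⟩ :=
    (T.finite_toSet.infinite_compl).exists_subset_card_eq (4 * g + 1)
  obtain ⟨lam, W, hW⟩ := RR.exists_canonical (K := K) (F := F)
  refine ⟨(Fintype.piFinset fun _ : Fin g => S).image S27.sumDiv, ?_, ?_⟩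
  · intro E hE
    obtain ⟨Y, hY, rfl⟩ := Finset.mem_image.1 hE
    rw [Fintype.mem_piFinset] at hY
    refine ⟨S27.NS.sumDiv_nonneg Y, by rw [S27.degree_sumDiv, Fintype.card_fin], fun P hP => ?_⟩
    apply S27.NS.sumDiv_apply_of_ne
    rintro j rfl
    exact hST (Finset.mem_coe.2 (hY j)) (Finset.mem_coe.2 hP)
  · intro D₀ hD₀
    have hdW := hW.degree_eq
    have hbound : ∀ D : Divisor K F, Divisor.degree D = 0 → RR.ell (W - D) ≤ g := by
      intro D hD
      have h1 := hW.rr D
      have h2 := RR.ell_le_degree_add_one (K := K) (F := F) (D := D) hD.ge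
      rw [hD] at h1 h2
      omega
    have hnD₀ : Divisor.degree (-D₀) = 0 := by rw [map_neg, hD₀, neg_zero]
    obtain ⟨Y, hYS, hY1, hY2⟩ := exists_kill S (2 * g) (by omega) g (W - D₀) (W - -D₀)
      (by rw [map_sub, hdW, hD₀]; push_cast; omega) (by rw [map_sub, hdW, hnD₀]; push_cast; omega)
      (hbound D₀ hD₀) (hbound _ hnD₀)
    refine ⟨S27.sumDiv Y, Finset.mem_image.2 ⟨Y, Fintype.mem_piFinset.2 hYS, rfl⟩, ?_, ?_⟩
    · have h1 := hW.rr (D₀ + S27.sumDiv Y)
      rw [← sub_sub, hY1, map_add, hD₀, S27.degree_sumDiv, Fintype.card_fin] at h1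
      have h2 : (RR.ell (D₀ + S27.sumDiv Y) : ℤ) = 1 := by push_cast at h1; omega
      exact_mod_cast h2
    · have h1 := hW.rr (-D₀ + S27.sumDiv Y)
      rw [← sub_sub, hY2, map_add, hnD₀, S27.degree_sumDiv, Fintype.card_fin] at h1
      have h2 : (RR.ell (-D₀ + S27.sumDiv Y) : ℤ) = 1 := by push_cast at h1; omega
      exact_mod_cast h2

end Fermat.Agent.MW
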