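import Fermat.Agent.S17.Curve.RRBpf

/-!
# S17 route F, layer 1: consequences of Riemann-Roch   [WP F-RR-MOVE]

Proof.  `D₀` a representative of `x`, `P₀` any place, `δ = 2g`: `L(D₀ + δ P₀)` and `L(δ P₀)` are base point free (`isBPF_L`); `exists_avoid`.
-/

set_option autoImplicit false

namespace Fermat.Agent.MW

open AlgebraicCurve Module

variable {K F : Type*} [Field K] [Field F] [Algebra K F] [IsAlgClosed K] [CharZero K] [S27.IsFF K F]

/-! ### [RR-MOVE] -/

/-- an effective member of `|A|`, `deg A ≥ 2g`, off a given finite set. -/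
theorem exists_member_avoid {A : Divisor K F} (h : 2 * (genusFF K F : ℤ) ≤ Divisor.degree A)
    (T : Finset (Place K F)) :
    ∃ f : F, f ≠ 0 ∧ 0 ≤ S27.divOf (K := K) f + A ∧ ∀ P ∈ T, (S27.divOf (K := K) f + A) P = 0 := by
  obtain ⟨f, hfL, hf0, hT⟩ := (isBPF_L h).exists_avoid T
  refine ⟨f, hf0, ?_, fun P hP => ?_⟩
  · rw [add_comm]
    exact S27.effective_of_mem_L hf0 hfL
  · rw [Finsupp.add_apply, S27.divOf_apply, hT P hP, neg_add_cancel]

/-- **moving lemma**: every class of degree `0` has a representative `Y - Y'`, `Y, Y' ≥ 0` of degree `2g`, with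
support off a given finite set. -/
theorem exists_moved (x : Pic0 K F) (T : Finset (Place K F)) :
    ∃ Y Y' : Divisor K F, 0 ≤ Y ∧ 0 ≤ Y' ∧ Divisor.degree Y = 2 * genusFF K F ∧
      Divisor.degree Y' = 2 * genusFF K F ∧ S27.dcl (Y - Y') = x ∧
      ∀ P ∈ T, Y P = 0 ∧ Y' P = 0 := by
  classical
  obtain ⟨D₀, hD₀, rfl⟩ := S27.dcl_surjective x
  obtain ⟨P₀⟩ := RR.IsFF1.nonempty_place (K := K) (F := F)
  set B : Divisor K F := (2 * (genusFF K F : ℤ)) • Finsupp.single P₀ 1 with hB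
  have hdB : Divisor.degree B = 2 * (genusFF K F : ℤ) := by
    rw [hB, map_zsmul, S27.degree_single_one]; simp
  have hdA : Divisor.degree (D₀ + B) = 2 * (genusFF K F : ℤ) := by
    rw [map_add, hD₀, hdB, zero_add]
  obtain ⟨f, hf0, hfe, hfT⟩ := exists_member_avoid (K := K) (F := F) (A := D₀ + B) hdA.ge T
  obtain ⟨h, hh0, hhe, hhT⟩ := exists_member_avoid (K := K) (F := F) (A := B) hdB.ge T
  refine ⟨_, _, hfe, hhe, ?_, ?_, ?_, fun P hP => ⟨hfT P hP, hhT P hP⟩⟩
  · rw [map_add, S27.degree_divOf hf0, hdA, zero_add]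
  · rw [map_add, S27.degree_divOf hh0, hdB, zero_add]
  · have e : S27.divOf (K := K) f + (D₀ + B) - (S27.divOf (K := K) h + B) =
        D₀ + (S27.divOf (K := K) f - S27.divOf (K := K) h) := by abel
    have hd : Divisor.degree (S27.divOf (K := K) f - S27.divOf (K := K) h) = 0 := by
      rw [map_sub, S27.degree_divOf hf0, S27.degree_divOf hh0, sub_self]
    rw [e, S27.dcl_add hD₀ hd, (S27.dcl_eq_zero_iff hd).2, add_zero]
    exact sub_mem (S27.mem_principal_iff.2 ⟨f, hf0, rfl⟩) (S27.mem_principal_iff.2 ⟨h, hh0, rfl⟩)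

end Fermat.Agent.MW
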