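import Fermat.Agent.S17.Curve.RRBpf
import Fermat.Agent.S17.Curve.RRPencil
import Fermat.Agent.S17.Curve.RRBertini
import Fermat.Agent.S17.Curve.RRE1
import Fermat.Agent.S17.Curve.RRMove

/-!
# S17 route F, layer 1: import hub for the consequences of Riemann-Roch
-/
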