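import Fermat.Agent.S17.Curve.MHSec
import Fermat.Agent.S17.Curve.RRFacts

/-!
# S17, layer 1: the sections `σ^Q_{kl}` of `A - Q`, their products, the tangent vector   [WP CURVE-SIG]
-/

set_option autoImplicit false

namespace Fermat.Agent.MW

open AlgebraicCurve

variable {F : Type*} [Field F] [Algebra Qb F] [S27.IsFF Qb F]

namespace Setup

variable (S : Setup F)

theorem sig_mem (v : Fin (S.n 1) → Qb) (q : Fin (S.n 1) × Fin (S.n 1)) : S.sig v q ∈ S.V 1 :=
  (S.V 1).sub_mem ((S.V 1).smul_mem _ (S.bas_mem 1 _)) ((S.V 1).smul_mem _ (S.bas_mem 1 _))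

theorem sig_smul (c : Qb) (v : Fin (S.n 1) → Qb) (q : Fin (S.n 1) × Fin (S.n 1)) :
    S.sig (c • v) q = c • S.sig v q := by
  unfold sig
  simp only [Pi.smul_apply, smul_eq_mul, smul_sub, mul_smul]

theorem evT_sub {m : ℕ} {T : Divisor Qb F} {f g : F} (hf : f ∈ riemannRochSpace (m • S.A - T))
    (hg : g ∈ riemannRochSpace (m • S.A - T)) (P : Place Qb F) :
    S.evT m T P (f - g) = S.evT m T P f - S.evT m T P g := by
  have h1 : f - g = f + (-1 : Qb) • g := by rw [neg_one_smul, sub_eq_add_neg]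
  rw [h1, S.evT_add hf (Submodule.smul_mem _ _ hg) P, S.evT_smul _ hg P]
  ring

theorem ev_sig (v : Fin (S.n 1) → Qb) (q : Fin (S.n 1) × Fin (S.n 1)) (P : Place Qb F) :
    S.ev 1 P (S.sig v q) = wedge2 v (S.x 1 P) q := by
  have hb : ∀ i, S.bas 1 i ∈ riemannRochSpace ((1 : ℕ) • S.A - 0) := fun i =>
    S.mem_V_iff_sub_zero.1 (S.bas_mem 1 i)
  unfold ev sig wedge2
  rw [S.evT_sub (Submodule.smul_mem _ _ (hb _)) (Submodule.smul_mem _ _ (hb _)) P,
    S.evT_smul _ (hb _) P, S.evT_smul _ (hb _) P]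
  rfl

theorem sigP_mem (Q : Place Qb F) (q : Fin (S.n 1) × Fin (S.n 1)) :
    S.sigP Q q ∈ riemannRochSpace ((1 : ℕ) • S.A - Finsupp.single Q 1) := by
  have h1 : S.sigP Q q ∈ riemannRochSpace ((1 : ℕ) • S.A - 0) :=
    S.mem_V_iff_sub_zero.1 (S.sig_mem _ q)
  have h2 := (S.evT_eq_zero_iff h1 Q).1 (by
    have := S.ev_sig (S.x 1 Q) q Q
    unfold ev at this
    unfold sigP
    rw [this]
    unfold wedge2
    ring)
  rwa [sub_zero] at h2

theorem degree_A_sub_single (Q : Place Qb F) :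
    2 * (genusFF Qb F : ℤ) ≤ Divisor.degree ((1 : ℕ) • S.A - Finsupp.single Q 1) := by
  rw [map_sub, map_nsmul, S.degree_A, S27.degree_single_one]
  have := S.ha
  have h3 : (2 * genusFF Qb F + 2 : ℤ) ≤ S.a := by exact_mod_cast this
  simp only [one_smul]
  linarith

/-- `L(A - Q)` is spanned by the `σ^Q_{kl}`. -/
theorem eq_sum_sigP {Q : Place Qb F} {f : F}
    (hf : f ∈ riemannRochSpace ((1 : ℕ) • S.A - Finsupp.single Q 1)) (k : Fin (S.n 1)) :
    S.x 1 Q k • f = ∑ l, S.coord 1 f l • S.sigP Q (k, l) := by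
  have hfV : f ∈ riemannRochSpace ((1 : ℕ) • S.A - 0) := by
    refine S27.L_mono ?_ hf
    rw [sub_zero]
    exact sub_le_self _ (Finsupp.single_nonneg.2 zero_le_one)
  have hfV' := S.mem_V_iff_sub_zero.2 hfV
  have hQ : S.ev 1 Q f = 0 := by
    unfold ev
    rw [S.evT_eq_zero_iff hfV Q, sub_zero]
    exact hf
  rw [S.ev_eq_sum_coord hfV' Q] at hQ
  unfold sigP sig
  simp only [smul_sub, Finset.sum_sub_distrib]
  have e1 : ∑ l, S.coord 1 f l • S.x 1 Q k • S.bas 1 l = S.x 1 Q k • f := by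
    conv_rhs => rw [← S.sec_coord hfV']
    unfold sec
    rw [Finset.smul_sum]
    exact Finset.sum_congr rfl fun l _ => smul_comm _ _ _
  have e2 : ∑ l, S.coord 1 f l • S.x 1 Q l • S.bas 1 k = 0 := by
    simp only [smul_smul]
    rw [← Finset.sum_smul, hQ, zero_smul]
  rw [e1, e2, sub_zero]

/-- the `σ^Q_{kl}` have no common zero beyond `Q` (`L(A - Q)` is spanned by them and base point free). -/
theorem exists_evT_sigP_ne_zero (Q P : Place Qb F) :
    ∃ q, S.evT 1 (Finsupp.single Q 1) P (S.sigP Q q) ≠ 0 := by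
  by_contra hcon
  push Not at hcon
  obtain ⟨f, hf, hne⟩ := S.exists_evT_ne_zero (S.degree_A_sub_single Q) P
  obtain ⟨k, hk⟩ := Function.ne_iff.1 (S.x_ne_zero 1 Q)
  have hk' : S.x 1 Q k ≠ 0 := hk
  have h1 := congrArg (S.evT 1 (Finsupp.single Q 1) P) (S.eq_sum_sigP hf k)
  rw [S.evT_smul _ hf P,
    S.evT_sum Finset.univ (fun l _ => Submodule.smul_mem _ _ (S.sigP_mem Q (k, l))) P] at h1
  have h2 : ∑ l, S.evT 1 (Finsupp.single Q 1) P (S.coord 1 f l • S.sigP Q (k, l)) = 0 := by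
    refine Finset.sum_eq_zero fun l _ => ?_
    rw [S.evT_smul _ (S.sigP_mem Q (k, l)) P, hcon, mul_zero]
  rw [h2] at h1
  exact (mul_ne_zero hk' hne) h1

theorem sct_of_ne {Q P : Place Qb F} (h : P ≠ Q) : S.sct P Q = wedge2 (S.x 1 Q) (S.x 1 P) := by
  classical
  funext q
  unfold sct
  rw [S.evT_congr 1 (T := Finsupp.single Q 1) (T' := 0) (P := P)
    (by rw [Finsupp.single_eq_of_ne h]; rfl)]
  exact S.ev_sig (S.x 1 Q) q P

theorem sct_ne_zero (P Q : Place Qb F) : S.sct P Q ≠ 0 := by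
  obtain ⟨q, hq⟩ := S.exists_evT_sigP_ne_zero Q P
  intro h
  exact hq (congrFun h q)

theorem tau_ne_zero (P : Place Qb F) : S.tau P ≠ 0 := S.sct_ne_zero P P

theorem hD_self (P : Place Qb F) : S.hD P P = 2 * S.h 1 P - S.htau P := by
  unfold hD htau tau
  ring

theorem hD_comm (P Q : Place Qb F) : S.hD P Q = S.hD Q P := by
  rcases eq_or_ne P Q with rfl | h
  · rfl
  unfold hD
  have h1 : S.sct P Q = (-1 : Qb) • S.sct Q P := by
    rw [S.sct_of_ne h, S.sct_of_ne h.symm]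
    funext q
    simp only [wedge2, Pi.smul_apply, smul_eq_mul]
    ring
  rw [h1, habs_smul _ (by norm_num)]
  ring

/-- `hD` is bounded below. -/
theorem exists_le_hD : ∃ C : ℝ, ∀ P Q : Place Qb F, P ≠ Q → -C ≤ S.hD P Q := by
  classical
  have hp : ∀ q : Fin (S.n 1) × Fin (S.n 1),
      IsMHPoly (k := Qb) (L := Bool) (ι := fun _ => Fin (S.n 1)) (fun _ => 1)
        (fun z => z true q.1 * z false q.2 - z true q.2 * z false q.1) := fun q => by
    have := ((IsMHPoly.coord (k := Qb) (L := Bool) (ι := fun _ => Fin (S.n 1)) true q.1).mul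
      (IsMHPoly.coord (k := Qb) (L := Bool) (ι := fun _ => Fin (S.n 1)) false q.2)).sub
      ((IsMHPoly.coord (k := Qb) (L := Bool) (ι := fun _ => Fin (S.n 1)) true q.2).mul
      (IsMHPoly.coord (k := Qb) (L := Bool) (ι := fun _ => Fin (S.n 1)) false q.1))
    convert this using 1
    funext b
    cases b <;> simp
  obtain ⟨C, hC⟩ := habs_mh_le _ _ hp
  refine ⟨C, fun P Q h => ?_⟩
  have h1 := hC (fun b => Bool.rec (S.x 1 P) (S.x 1 Q) b) (fun b => by
    cases b
    · exact S.x_ne_zero 1 P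
    · exact S.x_ne_zero 1 Q)
  unfold hD
  rw [S.sct_of_ne h]
  have h2 : habs (wedge2 (S.x 1 Q) (S.x 1 P)) ≤ (1 : ℕ) * habs (S.x 1 Q) + (1 : ℕ) * habs (S.x 1 P) + C := by
    rw [Fintype.sum_bool] at h1
    exact h1
  unfold Setup.h
  simp only [Nat.cast_one, one_mul] at h2
  linarith

/-- the product `π_q(z) = ∏_j σ(z_j)_{q_j}`. -/
noncomputable def piv {J : Type*} [Fintype J] (z : J → Fin (S.n 1) → Qb)
    (q : J → Fin (S.n 1) × Fin (S.n 1)) : F := ∏ j, S.sig (z j) (q j)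

/-- `π_q(Z) = ∏_j σ^{Z_j}_{q_j}` -/
noncomputable def piP {J : Type*} [Fintype J] (Z : J → Place Qb F)
    (q : J → Fin (S.n 1) × Fin (S.n 1)) : F := S.piv (fun j => S.x 1 (Z j)) q

theorem isMHSec_piv {J : Type*} [Fintype J] (q : J → Fin (S.n 1) × Fin (S.n 1)) :
    S.IsMHSec (L := J) (ι := fun _ => Fin (S.n 1)) (Fintype.card J) (fun _ => 1)
      (fun z => S.piv z q) := by
  classical
  have h1 : ∀ j, S.IsMHSec (L := J) (ι := fun _ => Fin (S.n 1)) 1 (Pi.single j 1 : J → ℕ)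
      (fun z => S.sig (z j) (q j)) := by
    intro j
    have a1 := IsMHSec.smul (S := S) (IsMHPoly.coord (k := Qb) (L := J)
      (ι := fun _ => Fin (S.n 1)) j (q j).1)
      (IsMHSec.const (S := S) (L := J) (ι := fun _ => Fin (S.n 1)) (S.bas_mem 1 (q j).2))
    have a2 := IsMHSec.smul (S := S) (IsMHPoly.coord (k := Qb) (L := J)
      (ι := fun _ => Fin (S.n 1)) j (q j).2)
      (IsMHSec.const (S := S) (L := J) (ι := fun _ => Fin (S.n 1)) (S.bas_mem 1 (q j).1))
    rw [add_zero] at a1 a2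
    exact a1.sub a2
  have h2 := IsMHSec.prod h1
  have h3 : (∑ j, (Pi.single j 1 : J → ℕ)) = fun _ => 1 := by
    funext i
    simp [Finset.sum_apply, Pi.single_apply]
  rw [h3] at h2
  exact h2

theorem piP_mem {J : Type*} [Fintype J] (Z : J → Place Qb F) (q : J → Fin (S.n 1) × Fin (S.n 1)) :
    S.piP Z q ∈ riemannRochSpace (Fintype.card J • S.A - S27.sumDiv Z) :=
  (S.evT_prod_finset Finset.univ (T := fun j => Finsupp.single (Z j) 1)
    (fun j _ => S.sigP_mem (Z j) (q j)) S.Pinf).1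

theorem evT_piP {J : Type*} [Fintype J] (Z : J → Place Qb F) (q : J → Fin (S.n 1) × Fin (S.n 1))
    (P : Place Qb F) :
    S.evT (Fintype.card J) (S27.sumDiv Z) P (S.piP Z q) = ∏ j, S.sct P (Z j) (q j) :=
  S.evT_prod (T := fun j => Finsupp.single (Z j) 1) (fun j => S.sigP_mem (Z j) (q j)) P

/-- no common zero beyond `∑ Z_j`. -/
theorem exists_evT_piP_ne_zero {J : Type*} [Fintype J] (Z : J → Place Qb F) (P : Place Qb F) :
    ∃ q, S.evT (Fintype.card J) (S27.sumDiv Z) P (S.piP Z q) ≠ 0 := by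
  choose q hq using fun j => S.exists_evT_sigP_ne_zero (Z j) P
  refine ⟨q, ?_⟩
  rw [S.evT_piP]
  exact Finset.prod_ne_zero_iff.2 fun j _ => hq j

/-- height of the leading coefficients of `π(Z)` at ANY place `P` (also `P ∈ Z`). -/
theorem habs_evT_piP {J : Type*} [Fintype J] (Z : J → Place Qb F) (P : Place Qb F) :
    habs (fun q : J → Fin (S.n 1) × Fin (S.n 1) =>
        S.evT (Fintype.card J) (S27.sumDiv Z) P (S.piP Z q)) =
      ∑ j, (S.h 1 P + S.h 1 (Z j) - S.hD P (Z j)) := by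
  simp only [S.evT_piP]
  rw [habs_pi_prod (fun j => S.sct P (Z j)) fun j => S.sct_ne_zero P (Z j)]
  refine Finset.sum_congr rfl fun j _ => ?_
  unfold hD
  ring

end Setup

end Fermat.Agent.MW
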