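import Fermat.Agent.S27.LSpace.IsFF1
import Fermat.Agent.S27.MinRep
import Fermat.Agent.S27.NonSpecial
import Fermat.Agent.RR.Weil
import Fermat.Agent.RR.Kaehler

/-!
# S17, layer 1: consequences of Riemann-Roch   [WP F-RR-BPF]

`K` algebraically closed of characteristic zero, `F/K` a function field (`S27.IsFF`), `g = genusFF K F`.
`D`-exact at `P` means `P.ord f = - D P` (the section `f` of `D` does not vanish at `P`).
-/

set_option autoImplicit false

namespace Fermat.Agent.MW

open AlgebraicCurve Module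

variable {K F : Type*} [Field K] [Field F] [Algebra K F] [IsAlgClosed K] [CharZero K] [S27.IsFF K F]

/-! ### [RR-BPF] -/

/-- Riemann-Roch for non special degrees. -/
theorem finrank_L_eq {D : Divisor K F} (h : 2 * (genusFF K F : ℤ) - 1 ≤ Divisor.degree D) :
    (finrank K (riemannRochSpace D) : ℤ) = Divisor.degree D + 1 - genusFF K F :=
  RR.ell_eq_of_lt (K := K) (F := F) (D := D) (by omega)

/-- a subspace `W ≤ L(D)` is base point free (as a system of sections of `D`). -/
def IsBPF (D : Divisor K F) (W : Submodule K F) : Prop :=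
  W ≤ riemannRochSpace D ∧ ∀ P : Place K F, ∃ f ∈ W, f ≠ 0 ∧ P.ord f = - D P

theorem isBPF_L {D : Divisor K F} (h : 2 * (genusFF K F : ℤ) ≤ Divisor.degree D) :
    IsBPF D (riemannRochSpace D) := by
  classical
  refine ⟨le_rfl, fun P => ?_⟩
  have e1 := finrank_L_eq (K := K) (F := F) (D := D) (by omega)
  have e2 := finrank_L_eq (K := K) (F := F) (D := D - Finsupp.single P 1)
    (by rw [map_sub, S27.degree_single_one]; omega)
  rw [map_sub, S27.degree_single_one] at e2
  have hlt : finrank K (riemannRochSpace (D - Finsupp.single P 1)) <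
      finrank K (riemannRochSpace (D - Finsupp.single P 1 + Finsupp.single P 1)) := by
    rw [sub_add_cancel]
    zify
    omega
  obtain ⟨φ, hφ, hv⟩ := S27.NS.exists_exact_pole hlt
  rw [sub_add_cancel] at hφ
  rw [Finsupp.sub_apply, Finsupp.single_eq_same, sub_add_cancel] at hv
  have hφ0 : φ ≠ 0 := by
    rintro rfl
    rw [map_zero] at hv
    exact WithZero.exp_ne_zero hv.symm
  refine ⟨φ, hφ, hφ0, ?_⟩
  rw [P.adicValuation_eq_exp_neg_ord hφ0, WithZero.exp_inj] at hv
  omega

/-- in a base point free system there is a section which does not vanish on a given finite set. -/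
theorem IsBPF.exists_avoid {D : Divisor K F} {W : Submodule K F} (hW : IsBPF D W)
    (T : Finset (Place K F)) : ∃ f ∈ W, f ≠ 0 ∧ ∀ P ∈ T, P.ord f = - D P := by
  classical
  obtain ⟨P₀⟩ := RR.IsFF1.nonempty_place (K := K) (F := F)
  set T' := insert P₀ T with hT'
  -- the proper subspaces
  let p : T' → Submodule K W := fun P =>
    (riemannRochSpace (D - Finsupp.single P.1 1)).comap W.subtype
  have hp : ∀ P, p P ≠ ⊤ := by
    intro P htop
    obtain ⟨f, hfW, hf0, hord⟩ := hW.2 P.1
    have : (⟨f, hfW⟩ : W) ∈ p P := by rw [htop]; trivial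
    have h1 : f ∈ riemannRochSpace (D - Finsupp.single P.1 1) := this
    have h2 := ((mem_riemannRochSpace_iff.1 h1) P.1).resolve_left hf0
    rw [Finsupp.sub_apply, Finsupp.single_eq_same] at h2
    omega
  obtain ⟨x, hx⟩ := Submodule.exists_forall_notMem_of_forall_ne_top p hp
  have hx0 : (x : F) ≠ 0 := by
    intro h0
    apply hx ⟨P₀, Finset.mem_insert_self _ _⟩
    show (x : F) ∈ riemannRochSpace _
    rw [h0]
    exact zero_mem _
  refine ⟨x, x.2, hx0, fun P hP => ?_⟩
  have hge := ((mem_riemannRochSpace_iff.1 (hW.1 x.2)) P).resolve_left hx0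
  by_contra hne
  apply hx ⟨P, Finset.mem_insert_of_mem hP⟩
  show (x : F) ∈ riemannRochSpace _
  rw [mem_riemannRochSpace_iff]
  intro Q
  right
  have hQ := ((mem_riemannRochSpace_iff.1 (hW.1 x.2)) Q).resolve_left hx0
  rw [Finsupp.sub_apply]
  by_cases hQP : Q = P
  · subst hQP
    rw [Finsupp.single_eq_same]
    omega
  · rw [Finsupp.single_eq_of_ne hQP]
    omega

/-- an effective divisor is a sum of places. -/
theorem exists_eq_sumDiv' {E : Divisor K F} (hE : 0 ≤ E) {n : ℕ} (hn : Divisor.degree E = n) :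
    ∃ Y : Fin n → Place K F, E = S27.sumDiv Y :=
  S27.NS.exists_eq_sumDiv n E hE hn

end Fermat.Agent.MW
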