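import Fermat.Agent.S17.Curve.Basic1
import Fermat.Agent.S17.Curve.RRBpf

/-!
# S17 route F, layer 1: evaluations   [WP F-CB2]
-/

set_option autoImplicit false

namespace Fermat.Agent.MW

open AlgebraicCurve

variable {F : Type*} [Field F] [Algebra Qb F] [S27.IsFF Qb F]

namespace Setup

variable (S : Setup F)

/-! ### evaluations -/

/-- the order at `P` of the normalised function. -/
theorem ord_evArg (m : ℕ) (T : Divisor Qb F) {f : F} (h0 : f ≠ 0) (P : Place Qb F) :
    P.ord (f * S.loc P ^ m * unif P ^ (-(T P))) = P.ord f + m * S.A P - T P := by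
  have h1 : S.loc P ^ m ≠ 0 := pow_ne_zero _ (S.loc_ne_zero P)
  have h2 : unif P ^ (-(T P)) ≠ 0 := zpow_ne_zero _ (unif_ne_zero P)
  rw [P.ord_mul (mul_ne_zero h0 h1) h2, P.ord_mul h0 h1, P.ord_zpow, ord_unif,
    ← zpow_natCast, P.ord_zpow, S.ord_loc]
  ring

theorem evArg_ne_zero (m : ℕ) (T : Divisor Qb F) {f : F} (h0 : f ≠ 0) (P : Place Qb F) :
    f * S.loc P ^ m * unif P ^ (-(T P)) ≠ 0 :=
  mul_ne_zero (mul_ne_zero h0 (pow_ne_zero _ (S.loc_ne_zero P))) (zpow_ne_zero _ (unif_ne_zero P))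

theorem adic_evT_le_one {m : ℕ} {T : Divisor Qb F} {f : F}
    (hf : f ∈ riemannRochSpace (m • S.A - T)) (P : Place Qb F) :
    P.adicValuation (f * S.loc P ^ m * unif P ^ (-(T P))) ≤ 1 := by
  rcases eq_or_ne f 0 with rfl | h0
  · simp
  rw [P.adicValuation_le_one_iff]
  right
  rw [S.ord_evArg m T h0 P]
  have := ((mem_riemannRochSpace_iff.1 hf) P).resolve_left h0
  simp only [Finsupp.sub_apply, Finsupp.smul_apply, nsmul_eq_mul] at this
  linarith

theorem evT_add {m : ℕ} {T : Divisor Qb F} {f g : F} (hf : f ∈ riemannRochSpace (m • S.A - T))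
    (hg : g ∈ riemannRochSpace (m • S.A - T)) (P : Place Qb F) :
    S.evT m T P (f + g) = S.evT m T P f + S.evT m T P g := by
  unfold evT
  rw [← S27.val_add P (S.adic_evT_le_one hf P) (S.adic_evT_le_one hg P)]
  congr 1
  ring

theorem evT_smul {m : ℕ} {T : Divisor Qb F} (c : Qb) {f : F}
    (hf : f ∈ riemannRochSpace (m • S.A - T)) (P : Place Qb F) :
    S.evT m T P (c • f) = c * S.evT m T P f := by
  unfold evT
  have h := S27.val_mul P (P.adicValuation_algebraMap_le_one c) (S.adic_evT_le_one hf P)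
  rw [S27.val_algebraMap] at h
  rw [← h]
  congr 1
  rw [Algebra.smul_def]
  ring

omit [S27.IsFF Qb F] in
theorem evT_zero (m : ℕ) (T : Divisor Qb F) (P : Place Qb F) : S.evT m T P 0 = 0 := by
  unfold evT
  rw [zero_mul, zero_mul]
  have := S27.val_algebraMap P (0 : Qb)
  rwa [map_zero] at this

theorem evT_sum {m : ℕ} {T : Divisor Qb F} {α : Type*} (s : Finset α) {f : α → F}
    (hf : ∀ a ∈ s, f a ∈ riemannRochSpace (m • S.A - T)) (P : Place Qb F) :
    S.evT m T P (∑ a ∈ s, f a) = ∑ a ∈ s, S.evT m T P (f a) := by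
  classical
  induction s using Finset.induction_on with
  | empty => simp [S.evT_zero]
  | insert a s ha ih =>
    rw [Finset.sum_insert ha, Finset.sum_insert ha,
      S.evT_add (hf a (Finset.mem_insert_self a s))
        (Submodule.sum_mem _ fun b hb => hf b (Finset.mem_insert_of_mem hb)) P,
      ih fun b hb => hf b (Finset.mem_insert_of_mem hb)]

theorem evT_mul {m m' : ℕ} {T T' : Divisor Qb F} {f g : F}
    (hf : f ∈ riemannRochSpace (m • S.A - T)) (hg : g ∈ riemannRochSpace (m' • S.A - T'))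
    (P : Place Qb F) :
    S.evT (m + m') (T + T') P (f * g) = S.evT m T P f * S.evT m' T' P g := by
  unfold evT
  rw [← S27.val_mul P (S.adic_evT_le_one hf P) (S.adic_evT_le_one hg P)]
  congr 1
  rw [Finsupp.add_apply, neg_add, zpow_add₀ (unif_ne_zero P), pow_add]
  ring

theorem evT_one_zero (P : Place Qb F) : S.evT 0 0 P 1 = 1 := by
  unfold evT
  simp [S27.val_one]

theorem evT_prod_finset {J : Type*} (s : Finset J) {T : J → Divisor Qb F} {f : J → F}
    (hf : ∀ j ∈ s, f j ∈ riemannRochSpace ((1 : ℕ) • S.A - T j)) (P : Place Qb F) :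
    (∏ j ∈ s, f j) ∈ riemannRochSpace (s.card • S.A - ∑ j ∈ s, T j) ∧
    S.evT s.card (∑ j ∈ s, T j) P (∏ j ∈ s, f j) = ∏ j ∈ s, S.evT 1 (T j) P (f j) := by
  classical
  induction s using Finset.induction_on with
  | empty =>
    refine ⟨?_, by simp [S.evT_one_zero]⟩
    simpa using S27.FFBase.one_mem_L_zero (K := Qb) (F := F)
  | insert a s ha ih =>
    obtain ⟨h1, h2⟩ := ih fun b hb => hf b (Finset.mem_insert_of_mem hb)
    have ha' := hf a (Finset.mem_insert_self a s)
    rw [Finset.prod_insert ha, Finset.prod_insert ha, Finset.sum_insert ha,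
      Finset.card_insert_of_notMem ha, add_comm s.card 1]
    refine ⟨?_, ?_⟩
    · have := S27.FFBase.mul_mem_L ha' h1
      convert this using 2
      rw [add_smul]
      abel
    · rw [S.evT_mul ha' h1 P, h2]

theorem evT_prod {J : Type*} [Fintype J] {T : J → Divisor Qb F} {f : J → F}
    (hf : ∀ j, f j ∈ riemannRochSpace ((1 : ℕ) • S.A - T j)) (P : Place Qb F) :
    S.evT (Fintype.card J) (∑ j, T j) P (∏ j, f j) = ∏ j, S.evT 1 (T j) P (f j) :=
  (S.evT_prod_finset Finset.univ (fun j _ => hf j) P).2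

/-- the leading coefficient vanishes iff `f` vanishes to higher order. -/
theorem evT_eq_zero_iff {m : ℕ} {T : Divisor Qb F} {f : F}
    (hf : f ∈ riemannRochSpace (m • S.A - T)) (P : Place Qb F) :
    S.evT m T P f = 0 ↔ f ∈ riemannRochSpace (m • S.A - T - Finsupp.single P 1) := by
  classical
  rcases eq_or_ne f 0 with rfl | h0
  · simp [S.evT_zero]
  unfold evT
  rw [S27.val_eq_zero_iff P (S.adic_evT_le_one hf P), S27.adic_lt_one_iff_ord,
    or_iff_right (S.evArg_ne_zero m T h0 P), S.ord_evArg m T h0 P, mem_riemannRochSpace_iff]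
  constructor
  · intro h v
    right
    have hv := ((mem_riemannRochSpace_iff.1 hf) v).resolve_left h0
    simp only [Finsupp.sub_apply, Finsupp.smul_apply, nsmul_eq_mul] at hv ⊢
    by_cases hvP : v = P
    · subst hvP
      rw [Finsupp.single_eq_same]
      linarith
    · rw [Finsupp.single_eq_of_ne hvP]
      linarith
  · intro h
    have hv := (h P).resolve_left h0
    simp only [Finsupp.sub_apply, Finsupp.smul_apply, nsmul_eq_mul, Finsupp.single_eq_same] at hv
    linarith

theorem evT_ne_zero_iff {m : ℕ} {T : Divisor Qb F} {f : F} (h0 : f ≠ 0)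
    (hf : f ∈ riemannRochSpace (m • S.A - T)) (P : Place Qb F) :
    S.evT m T P f ≠ 0 ↔ S.Z m f P = T P := by
  unfold evT
  rw [Ne, S27.val_eq_zero_iff P (S.adic_evT_le_one hf P), S27.adic_lt_one_iff_ord,
    or_iff_right (S.evArg_ne_zero m T h0 P), S.ord_evArg m T h0 P]
  have hv := ((mem_riemannRochSpace_iff.1 hf) P).resolve_left h0
  simp only [Finsupp.sub_apply, Finsupp.smul_apply, nsmul_eq_mul] at hv
  have hZ : S.Z m f P = P.ord f + m * S.A P := by
    unfold Z
    simp [S27.divOf_apply]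
  rw [hZ]
  constructor
  · intro h; linarith
  · intro h; linarith

/-- `evT` only depends on `T P`. -/
theorem evT_congr (m : ℕ) {T T' : Divisor Qb F} {P : Place Qb F} (h : T P = T' P) (f : F) :
    S.evT m T P f = S.evT m T' P f := by
  unfold evT
  rw [h]

theorem mem_V_iff_sub_zero {m : ℕ} {f : F} :
    f ∈ S.V m ↔ f ∈ riemannRochSpace (m • S.A - 0) := by
  rw [sub_zero]; rfl

theorem ev_sec (m : ℕ) (c : Fin (S.n m) → Qb) (P : Place Qb F) :
    S.ev m P (S.sec m c) = ∑ i, c i * S.x m P i := by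
  unfold ev sec x
  have hb : ∀ i, S.bas m i ∈ riemannRochSpace (m • S.A - 0) := fun i =>
    S.mem_V_iff_sub_zero.1 (S.bas_mem m i)
  rw [S.evT_sum Finset.univ (fun i _ => Submodule.smul_mem _ _ (hb i)) P]
  refine Finset.sum_congr rfl fun i _ => ?_
  rw [S.evT_smul _ (hb i) P]
  rfl

theorem ev_eq_sum_coord {m : ℕ} {f : F} (hf : f ∈ S.V m) (P : Place Qb F) :
    S.ev m P f = ∑ i, S.coord m f i * S.x m P i := by
  rw [← S.ev_sec, S.sec_coord hf]

/-- `L(mA - T)` has a section with nonzero leading coefficient at `P` if `deg (mA - T) ≥ 2g`. -/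
theorem exists_evT_ne_zero {m : ℕ} {T : Divisor Qb F}
    (h : 2 * (genusFF Qb F : ℤ) ≤ Divisor.degree (m • S.A - T)) (P : Place Qb F) :
    ∃ f ∈ riemannRochSpace (m • S.A - T), S.evT m T P f ≠ 0 := by
  obtain ⟨f, hf, h0, hord⟩ := (isBPF_L (K := Qb) (F := F) h).2 P
  refine ⟨f, hf, (S.evT_ne_zero_iff h0 hf P).2 ?_⟩
  unfold Z
  simp only [Finsupp.sub_apply, Finsupp.smul_apply, nsmul_eq_mul, Finsupp.add_apply,
    S27.divOf_apply] at hord ⊢
  linarith

/-- `V m` is base point free. -/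
theorem x_ne_zero (m : ℕ) (P : Place Qb F) : S.x m P ≠ 0 := by
  intro hx
  have key : ∀ f ∈ S.V m, S.ev m P f = 0 := by
    intro f hf
    rw [S.ev_eq_sum_coord hf P, hx]
    simp
  rcases Nat.eq_zero_or_pos m with rfl | hm
  · have h1 : (1 : F) ∈ S.V 0 := by
      unfold V
      simpa using S27.FFBase.one_mem_L_zero (K := Qb) (F := F)
    have := key 1 h1
    unfold ev at this
    rw [S.evT_one_zero] at this
    exact one_ne_zero this
  · have hdeg : 2 * (genusFF Qb F : ℤ) ≤ Divisor.degree (m • S.A - 0) := by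
      rw [sub_zero, map_nsmul, S.degree_A]
      have := S.ha
      have h2 : (S.a : ℤ) ≤ m • (S.a : ℤ) := by
        rw [nsmul_eq_mul]
        have : (1 : ℤ) ≤ m := by exact_mod_cast hm
        nlinarith
      have h3 : (2 * genusFF Qb F + 2 : ℤ) ≤ S.a := by exact_mod_cast this
      linarith
    obtain ⟨f, hf, hne⟩ := S.exists_evT_ne_zero hdeg P
    exact hne (key f (S.mem_V_iff_sub_zero.2 hf))

/-- `x_1` separates points (`a ≥ 2g+1`). -/
theorem wedge2_x_ne_zero {P Q : Place Qb F} (h : P ≠ Q) : wedge2 (S.x 1 P) (S.x 1 Q) ≠ 0 := by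
  classical
  intro hw
  -- a section vanishing at `P`, not at `Q`
  have hdeg : 2 * (genusFF Qb F : ℤ) ≤ Divisor.degree ((1 : ℕ) • S.A - Finsupp.single P 1) := by
    rw [map_sub, map_nsmul, S.degree_A, S27.degree_single_one]
    have := S.ha
    have h3 : (2 * genusFF Qb F + 2 : ℤ) ≤ S.a := by exact_mod_cast this
    simp only [one_smul]
    linarith
  obtain ⟨f, hf, hne⟩ := S.exists_evT_ne_zero hdeg Q
  have hfV : f ∈ riemannRochSpace ((1 : ℕ) • S.A - 0) := by
    refine S27.L_mono ?_ hf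
    rw [sub_zero]
    exact sub_le_self _ (Finsupp.single_nonneg.2 zero_le_one)
  have hQ : S.ev 1 Q f ≠ 0 := by
    unfold ev
    rwa [S.evT_congr 1 (T := 0) (T' := Finsupp.single P 1) (P := Q)
      (by rw [Finsupp.single_eq_of_ne (Ne.symm h)]; rfl)]
  have hP : S.ev 1 P f = 0 := by
    unfold ev
    rw [S.evT_eq_zero_iff hfV P, sub_zero]
    exact hf
  have hfV' := S.mem_V_iff_sub_zero.2 hfV
  rw [S.ev_eq_sum_coord hfV' Q] at hQ
  rw [S.ev_eq_sum_coord hfV' P] at hP
  obtain ⟨i, hi⟩ := Function.ne_iff.1 (S.x_ne_zero 1 P)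
  apply hQ
  have hi' : S.x 1 P i ≠ 0 := hi
  apply mul_left_cancel₀ hi'
  rw [mul_zero, Finset.mul_sum]
  have : ∀ k, S.x 1 P i * (S.coord 1 f k * S.x 1 Q k) = S.x 1 Q i * (S.coord 1 f k * S.x 1 P k) := by
    intro k
    have := congrFun hw (i, k)
    simp only [wedge2, Pi.zero_apply] at this
    linear_combination (S.coord 1 f k) * this
  rw [Finset.sum_congr rfl fun k _ => this k, ← Finset.mul_sum, hP, mul_zero]

theorem x_injective {P Q : Place Qb F} {c : Qb} (h : S.x 1 P = c • S.x 1 Q) : P = Q := by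
  by_contra hne
  apply S.wedge2_x_ne_zero hne
  funext q
  simp only [wedge2, h, Pi.smul_apply, smul_eq_mul, Pi.zero_apply]
  ring

end Setup

end Fermat.Agent.MW
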