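import Fermat.Agent.S17.Curve.Basic1
import Fermat.Agent.S17.Curve.Basic2

/-!
# S17 route F, layer 1: import hub for the basic calculus (the pairing `I` is in `Curve/Basic3.lean`)
-/
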