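import Fermat.Agent.S17.Curve.Defs
import Fermat.Agent.S17.Height.Spec

/-!
# S17, layer 1: basic calculus of sections and evaluations   [WP F-CB1]

Everything here is elementary (S27.Val / S27.LSpace / RR.Weil API).
-/

set_option autoImplicit false
set_option linter.unusedSectionVars false

namespace Fermat.Agent.MW

open AlgebraicCurve

variable {F : Type*} [Field F] [Algebra Qb F] [S27.IsFF Qb F]

theorem ord_unif (P : Place Qb F) : P.ord (unif P) = 1 :=
  (S24.Place.exists_uniformizer P).choose_spec.2.2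

theorem unif_ne_zero (P : Place Qb F) : unif P ≠ 0 :=
  (S24.Place.exists_uniformizer P).choose_spec.1

namespace Setup

variable (S : Setup F)

theorem A_nonneg : 0 ≤ S.A := by
  unfold A
  exact Finsupp.single_nonneg.2 (Int.natCast_nonneg _)

theorem degree_A : Divisor.degree S.A = S.a := by
  unfold A
  rw [Divisor.degree_single, S27.deg_eq_one]
  simp

theorem ord_loc (P : Place Qb F) : P.ord (S.loc P) = S.A P := by
  unfold loc
  rw [Place.ord_zpow, ord_unif, mul_one]

theorem loc_ne_zero (P : Place Qb F) : S.loc P ≠ 0 :=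
  zpow_ne_zero _ (unif_ne_zero P)

/-! ### sections and coordinates -/

theorem bas_mem (m : ℕ) (i : Fin (S.n m)) : S.bas m i ∈ S.V m :=
  (Module.finBasis Qb (S.V m) i).2

theorem sec_mem (m : ℕ) (c : Fin (S.n m) → Qb) : S.sec m c ∈ S.V m :=
  (S.V m).sum_mem fun i _ => (S.V m).smul_mem _ (S.bas_mem m i)

theorem sec_eq_coe (m : ℕ) (c : Fin (S.n m) → Qb) :
    S.sec m c = ((∑ i, c i • Module.finBasis Qb (S.V m) i : S.V m) : F) := by
  unfold sec bas
  rw [Submodule.coe_sum]
  rfl

theorem coord_sec (m : ℕ) (c : Fin (S.n m) → Qb) : S.coord m (S.sec m c) = c := by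
  unfold coord
  rw [dif_pos (S.sec_mem m c)]
  funext i
  have h : (⟨S.sec m c, S.sec_mem m c⟩ : S.V m) = ∑ i, c i • Module.finBasis Qb (S.V m) i :=
    Subtype.ext (S.sec_eq_coe m c)
  rw [h]
  exact congrFun (Module.Basis.repr_sum_self (Module.finBasis Qb (S.V m)) c) i

theorem sec_coord {m : ℕ} {f : F} (hf : f ∈ S.V m) : S.sec m (S.coord m f) = f := by
  rw [sec_eq_coe]
  unfold coord
  rw [dif_pos hf]
  exact congrArg Subtype.val (Module.Basis.sum_repr (Module.finBasis Qb (S.V m)) ⟨f, hf⟩)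

theorem sec_eq_zero_iff {m : ℕ} {c : Fin (S.n m) → Qb} : S.sec m c = 0 ↔ c = 0 := by
  constructor
  · intro h
    have h1 := S.coord_sec m c
    rw [h] at h1
    rw [← h1]
    unfold coord
    rw [dif_pos (S.V m).zero_mem]
    funext i
    have : (⟨0, (S.V m).zero_mem⟩ : S.V m) = 0 := rfl
    rw [this, map_zero]
    rfl
  · rintro rfl
    unfold sec
    simp

theorem coord_add {m : ℕ} {f g : F} (hf : f ∈ S.V m) (hg : g ∈ S.V m) :
    S.coord m (f + g) = S.coord m f + S.coord m g := by
  unfold coord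
  rw [dif_pos hf, dif_pos hg, dif_pos ((S.V m).add_mem hf hg)]
  funext i
  have : (⟨f + g, (S.V m).add_mem hf hg⟩ : S.V m) = ⟨f, hf⟩ + ⟨g, hg⟩ := rfl
  rw [this, map_add]
  rfl

theorem coord_smul {m : ℕ} (c : Qb) {f : F} (hf : f ∈ S.V m) :
    S.coord m (c • f) = c • S.coord m f := by
  unfold coord
  rw [dif_pos hf, dif_pos ((S.V m).smul_mem c hf)]
  funext i
  have : (⟨c • f, (S.V m).smul_mem c hf⟩ : S.V m) = c • ⟨f, hf⟩ := rfl
  rw [this, map_smul]
  rfl

theorem coord_zero (m : ℕ) : S.coord m 0 = 0 := by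
  have := S.coord_smul (m := m) 0 (S.V m).zero_mem
  simpa using this

theorem coord_sum {m : ℕ} {α : Type*} (s : Finset α) {f : α → F} (hf : ∀ a ∈ s, f a ∈ S.V m) :
    S.coord m (∑ a ∈ s, f a) = ∑ a ∈ s, S.coord m (f a) := by
  classical
  induction s using Finset.induction_on with
  | empty => simpa using S.coord_zero m
  | insert a s ha ih =>
    rw [Finset.sum_insert ha, Finset.sum_insert ha,
      S.coord_add (hf a (Finset.mem_insert_self a s))
        ((S.V m).sum_mem fun b hb => hf b (Finset.mem_insert_of_mem hb)),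
      ih fun b hb => hf b (Finset.mem_insert_of_mem hb)]

theorem mul_mem_V {m m' : ℕ} {f g : F} (hf : f ∈ S.V m) (hg : g ∈ S.V m') : f * g ∈ S.V (m + m') := by
  unfold V at *
  rw [add_smul]
  exact S27.FFBase.mul_mem_L hf hg

theorem one_mem_V_zero : (1 : F) ∈ S.V 0 := by
  unfold V
  rw [zero_smul]
  exact S27.FFBase.one_mem_L_zero

theorem prod_mem_V {J : Type*} [Fintype J] {f : J → F} (hf : ∀ j, f j ∈ S.V 1) :
    ∏ j, f j ∈ S.V (Fintype.card J) := by
  classical
  have key : ∀ s : Finset J, ∏ j ∈ s, f j ∈ S.V s.card := by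
    intro s
    induction s using Finset.induction_on with
    | empty => simpa using S.one_mem_V_zero
    | insert a s ha ih =>
      rw [Finset.prod_insert ha, Finset.card_insert_of_notMem ha, add_comm]
      exact S.mul_mem_V (hf a) ih
  exact key Finset.univ

/-- `n m = m a + 1 - g` for `m ≥ 1`. -/
theorem n_eq {m : ℕ} (hm : 1 ≤ m) : (S.n m : ℤ) = m * S.a + 1 - genusFF Qb F := by
  have hdeg : Divisor.degree (m • S.A) = m * S.a := by
    rw [map_nsmul, degree_A]; simp
  have h1 : 2 * (genusFF Qb F : ℤ) - 2 < Divisor.degree (m • S.A) := by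
    rw [hdeg]
    have h2 := S.ha
    have h3 : (S.a : ℤ) ≤ m * S.a := by
      have : (1 : ℤ) ≤ m := by exact_mod_cast hm
      nlinarith [Int.natCast_nonneg S.a]
    have h4 : (2 * genusFF Qb F + 2 : ℤ) ≤ S.a := by exact_mod_cast h2
    omega
  have := RR.ell_eq_of_lt h1
  rw [hdeg] at this
  exact this

theorem n_zero : S.n 0 = 1 := by
  unfold n V
  rw [zero_smul]
  exact S27.finrank_L_zero

/-! ### zero divisors -/

theorem mem_L_sub_iff {m : ℕ} {f : F} (h0 : f ≠ 0) (T : Divisor Qb F) :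
    f ∈ riemannRochSpace (m • S.A - T) ↔ T ≤ S.Z m f := by
  rw [mem_riemannRochSpace_iff]
  unfold Z
  constructor
  · intro h v
    have := (h v).resolve_left h0
    rw [Finsupp.sub_apply] at this
    rw [Finsupp.add_apply, S27.divOf_apply]
    omega
  · intro h v
    right
    have := h v
    rw [Finsupp.add_apply, S27.divOf_apply] at this
    rw [Finsupp.sub_apply]
    omega

theorem Z_nonneg {m : ℕ} {f : F} (hf : f ∈ S.V m) (h0 : f ≠ 0) : 0 ≤ S.Z m f := by
  rw [← S.mem_L_sub_iff h0, sub_zero]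
  exact hf

theorem degree_Z (m : ℕ) {f : F} (h0 : f ≠ 0) : Divisor.degree (S.Z m f) = m * S.a := by
  unfold Z
  rw [map_add, S27.degree_divOf h0, map_nsmul, degree_A]
  simp

theorem Z_mul {m m' : ℕ} {f g : F} (hf : f ≠ 0) (hg : g ≠ 0) :
    S.Z (m + m') (f * g) = S.Z m f + S.Z m' g := by
  unfold Z
  ext v
  simp only [Finsupp.add_apply, S27.divOf_apply, Place.ord_mul v hf hg, add_smul]
  ring

theorem Z_smul (m : ℕ) {c : Qb} (hc : c ≠ 0) (f : F) : S.Z m (c • f) = S.Z m f := by
  unfold Z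
  congr 1
  ext v
  rw [S27.divOf_apply, S27.divOf_apply]
  by_cases hf : f = 0
  · rw [hf, smul_zero]
  · have hc' : algebraMap Qb F c ≠ 0 := by simpa using hc
    rw [Algebra.smul_def, Place.ord_mul v hc' hf]
    have : v.ord (algebraMap Qb F c) = 0 := by
      unfold Place.ord
      rw [S27.adic_algebraMap v hc]
      simp
    rw [this, zero_add]

end Setup

end Fermat.Agent.MW
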