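import Fermat.Agent.S17.Height.Defs
import Fermat.Agent.S27.LSpace.IsFF1
import Fermat.Agent.S27.MinRep
import Fermat.Agent.S27.NonSpecial
import Fermat.Agent.RR.Weil

/-!
# S17, layer 1: the projective embedding data of a curve over `ℚ̄`.  DEFINITIONS (owner helper2, frozen)

`F/ℚ̄` a function field (`S27.IsFF`), `S : Setup F` = a place `Pinf` and an integer `a ≥ 2g+2`; `A = a • Pinf`.
* `S.V m = L(mA)`, `S.n m` its dimension, `S.bas m` a basis, `S.sec m c = ∑ c i • bas m i`, `S.coord m f`;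
* `unif P` a uniformiser, `S.loc P = unif P ^ A(P)`;
* `S.evT m T P f = val_P (f · loc_P^m · unif_P^{-T(P)})` (leading coefficient at `P` of `f ∈ L(mA - T)`),
  `S.ev m P = S.evT m 0 P`;
* `S.x m P` the evaluation vector, `S.h m P = habs (S.x m P)`;
* `S.sct P Q` secant/tangent Plücker vector, `S.hD P Q` the diagonal height (tangent line convention for `P = Q`),
  `S.I D E` the pairing on divisors, `S.hdiv D = ∑ D(P) h_1(P)`;
* `S.Z m f = div f + mA`; `S.sig v κ`, `S.sigP Q κ`, `S.tau P`, `S.htau P`; `S.wdg r Y`.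
-/

set_option autoImplicit false

namespace Fermat.Agent.MW

open AlgebraicCurve

variable {F : Type*} [Field F] [Algebra Qb F] [S27.IsFF Qb F]

/-- a uniformiser at `P` -/
noncomputable def unif (P : Place Qb F) : F := (S24.Place.exists_uniformizer P).choose

variable (F) in
/-- a place `Pinf` and an integer `a ≥ 2g+2`. -/
structure Setup where
  Pinf : Place Qb F
  a : ℕ
  ha : 2 * genusFF Qb F + 2 ≤ a

/-- `x ∧ y` -/
noncomputable def wedge2 {ι : Type*} (x y : ι → Qb) : ι × ι → Qb := fun q => x q.1 * y q.2 - x q.2 * y q.1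

/-- the `ℓ¹`-norm of a divisor -/
def dnorm (D : Divisor Qb F) : ℕ := D.sum fun _ n => n.natAbs

namespace Setup

variable (S : Setup F)

/-- `A = a • Pinf` -/
noncomputable def A : Divisor Qb F := Finsupp.single S.Pinf (S.a : ℤ)

/-- `V m = L(mA)` -/
noncomputable def V (m : ℕ) : Submodule Qb F := riemannRochSpace (m • S.A)

instance (m : ℕ) : FiniteDimensional Qb (S.V m) := S27.L_finiteDimensional _

noncomputable def n (m : ℕ) : ℕ := Module.finrank Qb (S.V m)

/-- a basis of `V m` (junk if `V m` were not finite dimensional) -/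
noncomputable def bas (m : ℕ) (i : Fin (S.n m)) : F := (Module.finBasis Qb (S.V m) i : F)

/-- the section with coordinate vector `c` -/
noncomputable def sec (m : ℕ) (c : Fin (S.n m) → Qb) : F := ∑ i, c i • S.bas m i

open Classical in
/-- the coordinate vector of `f ∈ V m` (`0` if `f ∉ V m`) -/
noncomputable def coord (m : ℕ) (f : F) : Fin (S.n m) → Qb :=
  if h : f ∈ S.V m then fun i => (Module.finBasis Qb (S.V m)).repr ⟨f, h⟩ i else 0

/-- local generator of `O(-A)` at `P` -/
noncomputable def loc (P : Place Qb F) : F := unif P ^ (S.A P)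

/-- leading coefficient at `P` of `f ∈ L(mA - T)` -/
noncomputable def evT (m : ℕ) (T : Divisor Qb F) (P : Place Qb F) (f : F) : Qb :=
  S27.val P (f * S.loc P ^ m * unif P ^ (-(T P)))

/-- evaluation at `P` of `f ∈ L(mA)` -/
noncomputable def ev (m : ℕ) (P : Place Qb F) (f : F) : Qb := S.evT m 0 P f

/-- the point `x_m(P)` -/
noncomputable def x (m : ℕ) (P : Place Qb F) : Fin (S.n m) → Qb := fun i => S.ev m P (S.bas m i)

noncomputable def h (m : ℕ) (P : Place Qb F) : ℝ := habs (S.x m P)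

/-- `σ(v)_{kl} = v_k b_l - v_l b_k ∈ V 1` -/
noncomputable def sig (v : Fin (S.n 1) → Qb) (q : Fin (S.n 1) × Fin (S.n 1)) : F :=
  v q.1 • S.bas 1 q.2 - v q.2 • S.bas 1 q.1

/-- `σ^Q_{kl}`, a section of `A - Q` -/
noncomputable def sigP (Q : Place Qb F) (q : Fin (S.n 1) × Fin (S.n 1)) : F := S.sig (S.x 1 Q) q

/-- Plücker vector of the secant line through `x(Q)`, `x(P)` (the TANGENT line if `P = Q`):
`= x(Q) ∧ x(P)` if `P ≠ Q`, `= x(P) ∧ x'(P)` if `P = Q`. -/
noncomputable def sct (P Q : Place Qb F) : Fin (S.n 1) × Fin (S.n 1) → Qb :=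
  fun q => S.evT 1 (Finsupp.single Q 1) P (S.sigP Q q)

/-- the tangent vector `x(P) ∧ x'(P)` -/
noncomputable def tau (P : Place Qb F) : Fin (S.n 1) × Fin (S.n 1) → Qb := S.sct P P

noncomputable def htau (P : Place Qb F) : ℝ := habs (S.tau P)

/-- the height relative to the diagonal (TANGENT LINE CONVENTION on the diagonal:
`hD P P = 2 h_1(P) - htau P`) -/
noncomputable def hD (P Q : Place Qb F) : ℝ := S.h 1 P + S.h 1 Q - habs (S.sct P Q)

/-- the bilinear extension of `hD` to divisors -/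
noncomputable def I (D E : Divisor Qb F) : ℝ :=
  D.sum fun P n => E.sum fun Q m => (n : ℝ) * (m : ℝ) * S.hD P Q

/-- `∑ D(P) h_1(P)` -/
noncomputable def hdiv (D : Divisor Qb F) : ℝ := D.sum fun P n => (n : ℝ) * S.h 1 P

/-- the divisor of zeros of the section `f` of `mA` -/
noncomputable def Z (m : ℕ) (f : F) : Divisor Qb F := S27.divOf (K := Qb) f + m • S.A

/-- Plücker coordinates of `x_r(Y_1) ∧ ... ∧ x_r(Y_j)` (indexed by ALL maps `Fin j → Fin (n r)`) -/
noncomputable def wdg (r : ℕ) {j : ℕ} (Y : Fin j → Place Qb F) : (Fin j → Fin (S.n r)) → Qb :=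
  fun q => Matrix.det (Matrix.of fun i i' : Fin j => S.x r (Y i) (q i'))

/-- a family of sections of `mA` whose coordinates are multihomogeneous of multidegree `d`. -/
def IsMHSec {L : Type*} {ι : L → Type*} (m : ℕ) (d : L → ℕ) (U : (∀ l, ι l → Qb) → F) : Prop :=
  (∀ z, U z ∈ S.V m) ∧ ∀ i, IsMHPoly d (fun z => S.coord m (U z) i)

/-- the cone over the curve in `k^{n_m}` -/
def cone (m : ℕ) : Set (Fin (S.n m) → Qb) := {v | v = 0 ∨ ∃ (P : Place Qb F) (c : Qb), v = c • S.x m P}

end Setup

end Fermat.Agent.MW
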