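import Fermat.Agent.S17.Curve.Basic
import Fermat.Agent.S17.Height.MHPoly

/-!
# S17, layer 1: calculus of polynomial families of sections   [WP CURVE-MHSEC]
-/

set_option autoImplicit false

namespace Fermat.Agent.MW

open AlgebraicCurve

variable {F : Type*} [Field F] [Algebra Qb F] [S27.IsFF Qb F]

namespace Setup

variable (S : Setup F) {L : Type*} {ι : L → Type*}

namespace IsMHSec

variable {S}

theorem congr {m : ℕ} {d : L → ℕ} {U U' : (∀ l, ι l → Qb) → F} (h : S.IsMHSec m d U)
    (h' : ∀ z, U' z = U z) : S.IsMHSec m d U' := by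
  have : U' = U := funext h'
  rw [this]; exact h

theorem const {m : ℕ} {f : F} (hf : f ∈ S.V m) :
    S.IsMHSec (ι := ι) m (0 : L → ℕ) (fun _ => f) :=
  ⟨fun _ => hf, fun _ => IsMHPoly.const _⟩

theorem add {m : ℕ} {d : L → ℕ} {U U' : (∀ l, ι l → Qb) → F} (h : S.IsMHSec m d U)
    (h' : S.IsMHSec m d U') : S.IsMHSec m d (fun z => U z + U' z) :=
  ⟨fun z => (S.V m).add_mem (h.1 z) (h'.1 z), fun i =>
    ((h.2 i).add (h'.2 i)).congr fun z => by rw [S.coord_add (h.1 z) (h'.1 z)]; rfl⟩

/-- multiplication by a polynomial function -/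
theorem smul {m : ℕ} {d e : L → ℕ} {f : (∀ l, ι l → Qb) → Qb} {U : (∀ l, ι l → Qb) → F}
    (hf : IsMHPoly e f) (h : S.IsMHSec m d U) : S.IsMHSec m (e + d) (fun z => f z • U z) :=
  ⟨fun z => (S.V m).smul_mem _ (h.1 z), fun i =>
    (hf.mul (h.2 i)).congr fun z => by rw [S.coord_smul _ (h.1 z)]; rfl⟩

theorem sub {m : ℕ} {d : L → ℕ} {U U' : (∀ l, ι l → Qb) → F} (h : S.IsMHSec m d U)
    (h' : S.IsMHSec m d U') : S.IsMHSec m d (fun z => U z - U' z) := by
  have h1 := smul (IsMHPoly.const (ι := ι) (-1 : Qb)) h'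
  rw [zero_add] at h1
  exact (h.add h1).congr fun z => by rw [neg_one_smul, sub_eq_add_neg]

theorem sum {α : Type*} (s : Finset α) {m : ℕ} {d : L → ℕ} {U : α → (∀ l, ι l → Qb) → F}
    (h : ∀ a ∈ s, S.IsMHSec m d (U a)) : S.IsMHSec m d (fun z => ∑ a ∈ s, U a z) :=
  ⟨fun z => (S.V m).sum_mem fun a ha => (h a ha).1 z, fun i =>
    (IsMHPoly.sum s fun a ha => (h a ha).2 i).congr fun z => by
      rw [S.coord_sum s (fun a ha => (h a ha).1 z), Finset.sum_apply]⟩

theorem mul {m m' : ℕ} {d d' : L → ℕ} {U U' : (∀ l, ι l → Qb) → F} (h : S.IsMHSec m d U)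
    (h' : S.IsMHSec m' d' U') : S.IsMHSec (m + m') (d + d') (fun z => U z * U' z) := by
  have key : ∀ z, U z * U' z = ∑ i, ∑ j, (S.coord m (U z) i * S.coord m' (U' z) j) •
      (S.bas m i * S.bas m' j) := by
    intro z
    conv_lhs => rw [← S.sec_coord (h.1 z), ← S.sec_coord (h'.1 z)]
    unfold sec
    rw [Finset.sum_mul_sum]
    refine Finset.sum_congr rfl fun i _ => Finset.sum_congr rfl fun j _ => ?_
    rw [smul_mul_smul_comm]
  refine congr ?_ key
  refine sum _ fun i _ => sum _ fun j _ => ?_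
  have h1 := smul ((h.2 i).mul (h'.2 j))
    (const (ι := ι) (S.mul_mem_V (S.bas_mem m i) (S.bas_mem m' j)))
  rwa [add_zero] at h1

/-- finite products of families of sections of `A` -/
theorem prod {J : Type*} [Fintype J] {d : J → L → ℕ} {U : J → (∀ l, ι l → Qb) → F}
    (h : ∀ j, S.IsMHSec 1 (d j) (U j)) :
    S.IsMHSec (Fintype.card J) (∑ j, d j) (fun z => ∏ j, U j z) := by
  classical
  have h1 : (1 : F) ∈ S.V 0 := by
    have := S.prod_mem_V (J := Empty) (f := fun _ => (1 : F)) (fun j => j.elim)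
    simpa using this
  have key : ∀ s : Finset J, S.IsMHSec s.card (∑ j ∈ s, d j) (fun z => ∏ j ∈ s, U j z) := by
    intro s
    induction s using Finset.induction_on with
    | empty => simpa using const (ι := ι) h1
    | insert a s ha ih =>
      rw [Finset.card_insert_of_notMem ha, Finset.sum_insert ha, add_comm s.card]
      exact ((h a).mul ih).congr fun z => by rw [Finset.prod_insert ha]
  exact key Finset.univ

end IsMHSec

/-- the universal section: `c ↦ sec m c` (one block). -/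
theorem isMHSec_sec (m : ℕ) :
    S.IsMHSec (L := Unit) (ι := fun _ => Fin (S.n m)) m (fun _ => 1) (fun z => S.sec m (z ())) := by
  classical
  refine ⟨fun z => S.sec_mem m _, fun i => ?_⟩
  have h1 := IsMHPoly.coord (k := Qb) (L := Unit) (ι := fun _ => Fin (S.n m)) () i
  refine IsMHPoly.congr (f := fun z => z () i) ?_ fun z => by rw [S.coord_sec]
  convert h1 using 1
  funext u
  simp

end Setup

end Fermat.Agent.MW
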